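/-
Program MW-H (S17), master theorem `U`, brick UB6.  helper7.

THE STAR FORMULA.  Let `s` be a section of degree `k`, `S` a section of degree `k'`, `Z` the zero
divisor of `s` (effective, of degree `k + k'`), and suppose `s · S = κ ∏_P L_P ^ Z(P)` in `F`, where
`L_P = ξ(p) η(x) - η(p) ξ(x)` is the linear section attached to the zero `P` and a pencil `(ξ, η)`.
Then for every place `Q`:

* `S` does not vanish at `Q` iff `ω(p ∧ q) ≠ 0` for all zeros `P ≠ Q` and `ω(q ∧ q') ≠ 0` if `Q` is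
  a zero (`ω = ξ ∧ η`);
* in that case `lead_Q(s) · S(q) = κ ∏_P w_P ^ Z(P)`, `w_P = ω(p ∧ q)` resp. `ω(q ∧ q')`.
-/
import Mathlib
import Fermat.Agent.MW.Spec.BricksU7
import Fermat.Agent.MW.FF.EvalLead49
import Fermat.Agent.X0.FFDict

set_option autoImplicit false

open AlgebraicCurve

namespace Fermat.Agent.MW.Master.Star7

open Fermat.Agent.MW.Spec.Defs7 Fermat.Agent.MW.Spec.Bricks7 Fermat.Agent.MW.Spec.BricksU7
open Fermat.Agent.X0.FF Fermat.Agent.MW.FF.EvalLead49

section General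

variable {K F : Type*} [Field K] [Field F] [Algebra K F]

theorem ord_finset_prod (Q : Place K F) {ι : Type*} (s : Finset ι) (f : ι → F)
    (hf : ∀ i ∈ s, f i ≠ 0) : Q.ord (∏ i ∈ s, f i) = ∑ i ∈ s, Q.ord (f i) := by
  classical
  induction s using Finset.induction_on with
  | empty => simp
  | insert i s hi ih =>
    rw [Finset.prod_insert hi, Finset.sum_insert hi,
      Q.ord_mul (hf i (Finset.mem_insert_self i s))
        (Finset.prod_ne_zero_iff.mpr fun j hj => hf j (Finset.mem_insert_of_mem hj)),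
      ih fun j hj => hf j (Finset.mem_insert_of_mem hj)]

theorem leadAt_finset_prod (hLM : LeadMul K F) (Q : Place K F) (t : F) (ht : Q.ord t = 1)
    {ι : Type*} (s : Finset ι) (f : ι → F) (hf : ∀ i ∈ s, f i ≠ 0) :
    leadAt Q t (∏ i ∈ s, f i) = ∏ i ∈ s, leadAt Q t (f i) := by
  classical
  induction s using Finset.induction_on with
  | empty => simp
  | insert i s hi ih =>
    rw [Finset.prod_insert hi, Finset.prod_insert hi,
      (hLM Q t _ _ ht (hf i (Finset.mem_insert_self i s))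
        (Finset.prod_ne_zero_iff.mpr fun j hj => hf j (Finset.mem_insert_of_mem hj))).1,
      ih fun j hj => hf j (Finset.mem_insert_of_mem hj)]

theorem leadAt_pow' (hLM : LeadMul K F) (Q : Place K F) (t : F) (ht : Q.ord t = 1) {f : F}
    (hf : f ≠ 0) (n : ℕ) : leadAt Q t (f ^ n) = leadAt Q t f ^ n := by
  induction n with
  | zero => simp
  | succ n ih => rw [pow_succ, pow_succ, (hLM Q t _ _ ht (pow_ne_zero n hf) hf).1, ih]

variable {n : ℕ}

theorem dot_contr (ξ η p q : Fin (n + 1) → K) :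
    dot (contr ξ η p) q = dot ξ p * dot η q - dot η p * dot ξ q := by
  simp only [dot, contr, sub_mul, Finset.sum_sub_distrib, Finset.mul_sum, mul_assoc]

theorem dot_contr_self (ξ η q : Fin (n + 1) → K) : dot (contr ξ η q) q = 0 := by
  rw [dot_contr]; ring

end General

variable {K F : Type} [Field K] [Field F] [Algebra K F] [HasCanonicalDivisor (K := K) (F := F)]
variable (U : USetup K F)

/-- The bivector attached to the zero `P` seen from `Q`: `p ∧ q`, resp. `q ∧ q'` if `P = Q`. -/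
noncomputable def bv (Q P : Place K F) : Fin (U.n + 1) × Fin (U.n + 1) → K := by
  classical
  exact if P = Q then wedge (U.pt Q) (U.tg Q) else wedge (U.pt P) (U.pt Q)

/-- The value of the 2-form `ξ ∧ η` on `bv Q P`. -/
noncomputable def wv (ξ η : Fin (U.n + 1) → K) (Q P : Place K F) : K := by
  classical
  exact if P = Q then dot (contr ξ η (U.pt Q)) (U.tg Q) else dot (contr ξ η (U.pt P)) (U.pt Q)

theorem wv_self (ξ η : Fin (U.n + 1) → K) (Q : Place K F) :
    wv U ξ η Q Q = dot (contr ξ η (U.pt Q)) (U.tg Q) := by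
  classical
  unfold wv; rw [if_pos rfl]

theorem wv_of_ne (ξ η : Fin (U.n + 1) → K) {Q P : Place K F} (h : P ≠ Q) :
    wv U ξ η Q P = dot (contr ξ η (U.pt P)) (U.pt Q) := by
  classical
  unfold wv; rw [if_neg h]

/-- Order of a section of degree `k` in terms of its zero divisor. -/
theorem ord_eq_of_isZeroDiv (hMin : U.MinOrdSpec) {k : ℕ} {Z : Divisor K F} {s : F}
    (hZ : U.IsZeroDiv k Z s) (Q : Place K F) : Q.ord s = Z Q + (k : ℤ) * minOrd Q U.x := by
  classical
  have h := hZ Q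
  by_cases hQ : Q = U.inf
  · subst hQ
    rw [Finsupp.single_eq_same] at h
    rw [hMin.2]
    push_cast at h ⊢
    linarith
  · rw [Finsupp.single_apply, if_neg (Ne.symm hQ)] at h
    rw [hMin.1 Q hQ]
    linarith

/-- **The star formula.** -/
theorem star (hLM : LeadMul K F) (hMin : U.MinOrdSpec) (hLL : U.LeadLinear) (hSV : U.SecValue)
    (ξ η : Fin (U.n + 1) → K) {k k' : ℕ} (B : U.MonoBasis k) (B' : U.MonoBasis k')
    (c : Fin B.ℓ → K) (c' : Fin B'.ℓ → K) (Z : Divisor K F)
    (hZ : U.IsZeroDiv k Z (B.sec c)) (hZ0 : 0 ≤ Z)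
    (hZsum : (Z.sum fun _ e => e) = ((k + k' : ℕ) : ℤ)) (κ : K) (hκ : κ ≠ 0)
    (hs : B.sec c ≠ 0)
    (hid : B.sec c * B'.sec c' =
      algebraMap K F κ * Z.prod fun P e => lin (contr ξ η (U.pt P)) U.x ^ e.toNat)
    (hL : ∀ P ∈ Z.support, lin (contr ξ η (U.pt P)) U.x ≠ 0) (Q : Place K F) :
    (B'.val c' (U.pt Q) ≠ 0 ↔ ∀ P ∈ Z.support, wv U ξ η Q P ≠ 0) ∧
    (B'.val c' (U.pt Q) ≠ 0 →
      leadAt Q (U.t Q) (B.sec c) * B'.val c' (U.pt Q) =
        κ * Z.prod fun P e => wv U ξ η Q P ^ e.toNat) := by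
  classical
  set μ : ℤ := minOrd Q U.x with hμ
  have ht := U.t_ord Q
  have hκF : algebraMap K F κ ≠ 0 := by
    rwa [ne_eq, map_eq_zero_iff _ (algebraMap K F).injective]
  -- the product is nonzero
  have hprod_ne : (Z.prod fun P e => lin (contr ξ η (U.pt P)) U.x ^ e.toNat) ≠ 0 := by
    rw [Finsupp.prod]
    exact Finset.prod_ne_zero_iff.mpr fun P hP => pow_ne_zero _ (hL P hP)
  have hS : B'.sec c' ≠ 0 := by
    intro h0
    rw [h0, mul_zero] at hid
    exact (mul_ne_zero hκF hprod_ne) hid.symm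
  -- nonnegativity of the multiplicities
  have hZnn : ∀ P, 0 ≤ Z P := fun P => by
    have := Finsupp.le_def.mp hZ0 P
    simpa using this
  have htoNat : ∀ P, ((Z P).toNat : ℤ) = Z P := fun P => Int.toNat_of_nonneg (hZnn P)
  -- the defect of each linear section
  set d : Place K F → ℤ := fun P => Q.ord (lin (contr ξ η (U.pt P)) U.x) - μ - (if P = Q then 1 else 0) with hd
  have hdspec : ∀ P ∈ Z.support, 0 ≤ d P ∧ (d P = 0 ↔ wv U ξ η Q P ≠ 0) ∧
      (wv U ξ η Q P ≠ 0 → leadAt Q (U.t Q) (lin (contr ξ η (U.pt P)) U.x) = wv U ξ η Q P) := by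
    intro P hP
    have hLP := hL P hP
    obtain ⟨h1, h2, h3⟩ := hLL Q (contr ξ η (U.pt P))
    by_cases hPQ : P = Q
    · subst hPQ
      have h0 : dot (contr ξ η (U.pt P)) (U.pt P) = 0 := dot_contr_self _ _ _
      rw [wv_self]
      simp only [hd, ↓reduceIte]
      by_cases hw : dot (contr ξ η (U.pt P)) (U.tg P) ≠ 0
      · obtain ⟨ho, hl⟩ := h2 h0 hw
        refine ⟨by rw [ho]; simp [hμ], ⟨fun _ => hw, fun _ => by rw [ho]; simp [hμ]⟩, fun _ => hl⟩
      · rw [not_not] at hw
        have ho := (h3 h0 hw).resolve_left hLP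
        refine ⟨by linarith, ⟨fun h => ?_, fun h => absurd hw h⟩, fun h => absurd hw h⟩
        exfalso; linarith
    · rw [wv_of_ne U ξ η hPQ]
      simp only [hd, if_neg hPQ]
      by_cases hw : dot (contr ξ η (U.pt P)) (U.pt Q) ≠ 0
      · obtain ⟨ho, hl⟩ := h1 hw
        refine ⟨by rw [ho]; simp [hμ], ⟨fun _ => hw, fun _ => by rw [ho]; simp [hμ]⟩, fun _ => hl⟩
      · rw [not_not] at hw
        have ho : μ + 1 ≤ Q.ord (lin (contr ξ η (U.pt P)) U.x) := by
          by_cases hw' : dot (contr ξ η (U.pt P)) (U.tg Q) ≠ 0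
          · exact (h2 hw hw').1.ge
          · rw [not_not] at hw'
            have := (h3 hw hw').resolve_left hLP
            linarith
        refine ⟨by linarith, ⟨fun h => ?_, fun h => absurd hw h⟩, fun h => absurd hw h⟩
        exfalso; linarith
  -- orders
  have hord : Q.ord (B.sec c) + Q.ord (B'.sec c') =
      ∑ P ∈ Z.support, Z P * Q.ord (lin (contr ξ η (U.pt P)) U.x) := by
    rw [← Q.ord_mul hs hS, hid, Q.ord_mul hκF hprod_ne, ord_algebraMap, zero_add, Finsupp.prod,
      ord_finset_prod Q _ _ fun P hP => pow_ne_zero _ (hL P hP)]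
    refine Finset.sum_congr rfl fun P _ => ?_
    rw [ord_pow, htoNat]
  have hords := ord_eq_of_isZeroDiv U hMin hZ Q
  have hsumZ : ∑ P ∈ Z.support, Z P = ((k + k' : ℕ) : ℤ) := by
    rw [← hZsum, Finsupp.sum]
  have hZQ : ∑ P ∈ Z.support, Z P * (if P = Q then 1 else 0) = Z Q := by
    simp only [mul_ite, mul_one, mul_zero]
    rw [Finset.sum_ite_eq']
    split_ifs with h
    · rfl
    · exact (Finsupp.notMem_support_iff.mp h).symm
  have hdefect : Q.ord (B'.sec c') - (k' : ℤ) * μ = ∑ P ∈ Z.support, Z P * d P := by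
    have e1 : ∑ P ∈ Z.support, Z P * d P =
        ∑ P ∈ Z.support, Z P * Q.ord (lin (contr ξ η (U.pt P)) U.x) - μ * ∑ P ∈ Z.support, Z P
          - ∑ P ∈ Z.support, Z P * (if P = Q then 1 else 0) := by
      rw [Finset.mul_sum, ← Finset.sum_sub_distrib, ← Finset.sum_sub_distrib]
      refine Finset.sum_congr rfl fun P _ => ?_
      simp only [hd]; ring
    rw [e1, ← hord, hsumZ, hZQ, hords]
    push_cast
    ring
  obtain ⟨hsv1, hsv2, hsv3⟩ := hSV k' B' c' Q
  have hiff : B'.val c' (U.pt Q) ≠ 0 ↔ ∀ P ∈ Z.support, wv U ξ η Q P ≠ 0 := by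
    constructor
    · intro hval P hP
      have h0 : ∑ P ∈ Z.support, Z P * d P = 0 := by
        rw [← hdefect, (hsv2 hval).1, ← hμ]; ring
      have hall := (Finset.sum_eq_zero_iff_of_nonneg fun P hP =>
        mul_nonneg (hZnn P) (hdspec P hP).1).mp h0 P hP
      have hZP : Z P ≠ 0 := Finsupp.mem_support_iff.mp hP
      exact ((hdspec P hP).2.1).mp ((mul_eq_zero.mp hall).resolve_left hZP)
    · intro hall hval
      have hlt := hsv3 hval hS
      have h0 : ∑ P ∈ Z.support, Z P * d P = 0 :=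
        Finset.sum_eq_zero fun P hP => by
          rw [((hdspec P hP).2.1).mpr (hall P hP), mul_zero]
      rw [← hμ] at hlt
      linarith [hdefect]
  refine ⟨hiff, fun hval => ?_⟩
  have hall := hiff.mp hval
  have hlead : leadAt Q (U.t Q) (B.sec c * B'.sec c') =
      leadAt Q (U.t Q) (B.sec c) * B'.val c' (U.pt Q) := by
    rw [(hLM Q _ _ _ ht hs hS).1, (hsv2 hval).2]
  rw [← hlead, hid, (hLM Q _ _ _ ht hκF hprod_ne).1, leadAt_algebraMap, Finsupp.prod,
    leadAt_finset_prod hLM Q _ ht _ _ fun P hP => pow_ne_zero _ (hL P hP), Finsupp.prod]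
  congr 1
  refine Finset.prod_congr rfl fun P hP => ?_
  rw [leadAt_pow' hLM Q _ ht (hL P hP), (hdspec P hP).2.2 (hall P hP)]

end Fermat.Agent.MW.Master.Star7
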