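/-
Program MW-H (S17), master theorem `U`.  helper7.

ALGEBRA OF TAME CONSTANTS (`Bricks7.IsTameConst`): `1`, products, powers, maxima, finite suprema,
the triangle constants, the Gauss constant, polynomial bounds.
-/
import Mathlib
import Fermat.Agent.MW.Spec.Bricks7
import Fermat.Agent.MW.Local.Certificate7

set_option autoImplicit false

namespace Fermat.Agent.MW.Master.TameConst7

open Fermat.Agent.MW.Spec.Defs7 Fermat.Agent.MW.Spec.Bricks7
open Fermat.Agent.MW.Local.Certificate7 Fermat.Agent.MW.Local.GenPos2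

variable {K : Type*} [Field K]

theorem tame_one_le {C : AbsoluteValue K ℝ → ℝ} (h : IsTameConst C)
    (v : AbsoluteValue K ℝ) : 1 ≤ C v := by
  obtain ⟨S, -, hS⟩ := h
  exact (hS v).1

theorem tame_pos {C : AbsoluteValue K ℝ → ℝ} (h : IsTameConst C)
    (v : AbsoluteValue K ℝ) : 0 < C v := lt_of_lt_of_le one_pos (tame_one_le h v)

theorem isTameConst_one : IsTameConst (fun _ : AbsoluteValue K ℝ => (1 : ℝ)) :=
  ⟨∅, by simp, fun _ => ⟨le_rfl, fun _ _ => rfl⟩⟩

theorem tame_mul {C D : AbsoluteValue K ℝ → ℝ} (hC : IsTameConst C) (hD : IsTameConst D) :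
    IsTameConst (fun v => C v * D v) := by
  classical
  obtain ⟨S, hS0, hS⟩ := hC
  obtain ⟨T, hT0, hT⟩ := hD
  refine ⟨S ∪ T, ?_, fun v => ⟨?_, fun hv h => ?_⟩⟩
  · intro a ha
    rcases Finset.mem_union.mp ha with h | h
    · exact hS0 a h
    · exact hT0 a h
  · exact one_le_mul_of_one_le_of_one_le (hS v).1 (hT v).1
  · change C v * D v = 1
    rw [(hS v).2 hv fun a ha => h a (Finset.mem_union_left _ ha),
      (hT v).2 hv fun a ha => h a (Finset.mem_union_right _ ha), mul_one]

theorem tame_pow {C : AbsoluteValue K ℝ → ℝ} (hC : IsTameConst C) (n : ℕ) :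
    IsTameConst (fun v => C v ^ n) := by
  induction n with
  | zero => simpa using isTameConst_one (K := K)
  | succ n ih => simpa [pow_succ] using tame_mul ih hC

theorem tame_max {C D : AbsoluteValue K ℝ → ℝ} (hC : IsTameConst C) (hD : IsTameConst D) :
    IsTameConst (fun v => max (C v) (D v)) := by
  classical
  obtain ⟨S, hS0, hS⟩ := hC
  obtain ⟨T, hT0, hT⟩ := hD
  refine ⟨S ∪ T, ?_, fun v => ⟨?_, fun hv h => ?_⟩⟩
  · intro a ha
    rcases Finset.mem_union.mp ha with h | h
    · exact hS0 a h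
    · exact hT0 a h
  · exact le_max_of_le_left (hS v).1
  · change Max.max (C v) (D v) = 1
    rw [(hS v).2 hv fun a ha => h a (Finset.mem_union_left _ ha),
      (hT v).2 hv fun a ha => h a (Finset.mem_union_right _ ha), max_self]

/-- A finite supremum of tame constants (indexed by a list-like `Fin r`, `r` arbitrary; the
supremum includes `1`). -/
theorem tame_finSup : ∀ (r : ℕ) (C : Fin r → AbsoluteValue K ℝ → ℝ),
    (∀ i, IsTameConst (C i)) → ∃ D : AbsoluteValue K ℝ → ℝ, IsTameConst D ∧ ∀ i v, C i v ≤ D v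
  | 0, _, _ => ⟨fun _ => 1, isTameConst_one, fun i => i.elim0⟩
  | r + 1, C, hC => by
    obtain ⟨D, hD, hle⟩ := tame_finSup r (fun i => C i.castSucc) fun i => hC _
    refine ⟨fun v => max (D v) (C (Fin.last r) v), tame_max hD (hC _), fun i v => ?_⟩
    refine Fin.lastCases ?_ (fun j => ?_) i
    · exact le_max_right _ _
    · exact (hle j v).trans (le_max_left _ _)

/-- A supremum of tame constants over a finite type. -/
theorem tame_fintypeSup {ι : Type*} [Finite ι] (C : ι → AbsoluteValue K ℝ → ℝ)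
    (hC : ∀ i, IsTameConst (C i)) :
    ∃ D : AbsoluteValue K ℝ → ℝ, IsTameConst D ∧ ∀ i v, C i v ≤ D v := by
  obtain ⟨r, ⟨e⟩⟩ := Finite.exists_equiv_fin ι
  obtain ⟨D, hD, hle⟩ := tame_finSup r (fun j => C (e.symm j)) fun j => hC _
  exact ⟨D, hD, fun i v => by simpa using hle (e i) v⟩

theorem isTameConst_triC {n : ℕ} (hn : 1 ≤ n) :
    IsTameConst (fun v : AbsoluteValue K ℝ => triC v n) := by
  refine ⟨∅, by simp, fun v => ⟨?_, fun hv _ => ?_⟩⟩
  · change 1 ≤ triC v n
    unfold triC
    split_ifs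
    · exact le_rfl
    · exact_mod_cast hn
  · change triC v n = 1
    unfold triC
    rw [if_pos hv]

/-- The constant `1` at nonarchimedean absolute values and `c ≥ 1` elsewhere. -/
noncomputable def archConst (c : ℝ) (v : AbsoluteValue K ℝ) : ℝ := by
  classical
  exact if IsNonarchimedean v then 1 else c

theorem isTameConst_archConst {c : ℝ} (hc : 1 ≤ c) : IsTameConst (archConst (K := K) c) := by
  refine ⟨∅, by simp, fun v => ⟨?_, fun hv _ => ?_⟩⟩
  · unfold archConst
    split_ifs
    · exact le_rfl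
    · exact hc
  · unfold archConst
    rw [if_pos hv]

theorem archConst_of_nonarch {c : ℝ} {v : AbsoluteValue K ℝ} (hv : IsNonarchimedean v) :
    archConst c v = 1 := by
  unfold archConst
  rw [if_pos hv]

theorem archConst_of_not_nonarch {c : ℝ} {v : AbsoluteValue K ℝ} (hv : ¬IsNonarchimedean v) :
    archConst c v = c := by
  unfold archConst
  rw [if_neg hv]

/-- `max 1 (polyBound v p)` is tame. -/
theorem isTameConst_polyBound {σ : Type*} (p : MvPolynomial σ K) :
    IsTameConst (fun v => max 1 (polyBound v p)) := by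
  classical
  refine ⟨p.support.image fun m => p.coeff m, ?_, fun v => ⟨le_max_left _ _, fun hv hS => ?_⟩⟩
  · intro x hx
    obtain ⟨m, hm, rfl⟩ := Finset.mem_image.mp hx
    exact MvPolynomial.mem_support_iff.mp hm
  · refine max_eq_left (polyBound_le_one v hv p fun m hm => le_of_eq (hS _ ?_))
    exact Finset.mem_image.mpr ⟨m, hm, rfl⟩

/-- `max 1 (v a)` for a fixed number `a` is tame. -/
theorem isTameConst_abv (a : K) : IsTameConst (fun v : AbsoluteValue K ℝ => max 1 (v a)) := by
  classical
  rcases eq_or_ne a 0 with rfl | ha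
  · refine ⟨∅, by simp, fun v => ⟨le_max_left _ _, fun _ _ => ?_⟩⟩
    simp
  · refine ⟨{a}, by simpa using ha, fun v => ⟨le_max_left _ _, fun _ hS => ?_⟩⟩
    change max 1 (v a) = 1
    rw [hS a (Finset.mem_singleton_self a), max_self]

end Fermat.Agent.MW.Master.TameConst7
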