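/-
Program MW-H (S17), master theorem `U`.  helper7.

NUMERIC TOOLKIT for the final assembly: bounds for linear forms and 2-forms, the uniform formula
for `lamAt`, `pairAt` against a point, and the real-number core of the Gauss step.
-/
import Mathlib
import Fermat.Agent.MW.Spec.BricksU7
import Fermat.Agent.MW.Master.Star7
import Fermat.Agent.MW.Master.TameConst7
import Fermat.Agent.MW.Global.PairBasic2
import Fermat.Agent.MW.Local.GenPosContract80

set_option autoImplicit false

open AlgebraicCurve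

namespace Fermat.Agent.MW.Master.Numeric7

open Fermat.Agent.MW.Hadamard7 Fermat.Agent.MW.Spec.Defs7
open Fermat.Agent.MW.Spec.Bricks7 Fermat.Agent.MW.Spec.BricksU7
open Fermat.Agent.MW.Master.TameConst7 Fermat.Agent.MW.Master.Star7
open Fermat.Agent.MW.Local.Chord2 Fermat.Agent.MW.Local.GenPos2
open Fermat.Agent.MW.Global.PairBasic2

section Vec

variable {K : Type*} [Field K] {ι : Type*} [Fintype ι]

/-- `max 1 ‖ξ‖_v` for a fixed vector `ξ` is tame. -/
theorem isTameConst_vecMax (ξ : ι → K) :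
    IsTameConst (fun v : AbsoluteValue K ℝ => max 1 (supNorm v ξ)) := by
  classical
  refine ⟨(Finset.univ.image ξ).filter (· ≠ 0), fun a ha => (Finset.mem_filter.mp ha).2,
    fun v => ⟨le_max_left _ _, fun _ hS => ?_⟩⟩
  refine max_eq_left (supNorm_le v zero_le_one fun i => ?_)
  by_cases h0 : ξ i = 0
  · rw [h0, map_zero]; exact zero_le_one
  · exact le_of_eq (hS _ (Finset.mem_filter.mpr ⟨Finset.mem_image.mpr ⟨i, Finset.mem_univ _, rfl⟩, h0⟩))

end Vec

section Forms

variable {K : Type*} [Field K] {n : ℕ}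

theorem abv_dot_le (v : AbsoluteValue K ℝ) (ξ p : Fin (n + 1) → K) :
    v (dot ξ p) ≤ triC v (n + 1) * (max 1 (supNorm v ξ) * supNorm v p) := by
  have := abv_sum_le_triC v (Finset.univ : Finset (Fin (n + 1))) (fun b => ξ b * p b)
    (max 1 (supNorm v ξ) * supNorm v p)
    (mul_nonneg (le_trans zero_le_one (le_max_left _ _)) (supNorm_nonneg v p)) fun b _ => by
      rw [map_mul]
      exact mul_le_mul ((le_supNorm v ξ b).trans (le_max_right _ _)) (le_supNorm v p b)
        (v.nonneg _) (le_trans zero_le_one (le_max_left _ _))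
  simpa [dot] using this

theorem abv_omega_le (v : AbsoluteValue K ℝ) (ξ η : Fin (n + 1) → K)
    (w : Fin (n + 1) × Fin (n + 1) → K) :
    v (omega ξ η w) ≤ triC v (n + 1) * (triC v (n + 1) *
      (max 1 (supNorm v ξ) * max 1 (supNorm v η) * supNorm v w)) := by
  have hξ : (0 : ℝ) ≤ max 1 (supNorm v ξ) := le_trans zero_le_one (le_max_left _ _)
  have hη : (0 : ℝ) ≤ max 1 (supNorm v η) := le_trans zero_le_one (le_max_left _ _)
  have hB : 0 ≤ max 1 (supNorm v ξ) * max 1 (supNorm v η) * supNorm v w :=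
    mul_nonneg (mul_nonneg hξ hη) (supNorm_nonneg v w)
  unfold omega
  have h1 := abv_sum_le_triC v (Finset.univ : Finset (Fin (n + 1)))
    (fun i => ∑ j, ξ i * η j * w (i, j))
    (triC v (n + 1) * (max 1 (supNorm v ξ) * max 1 (supNorm v η) * supNorm v w))
    (mul_nonneg (triC_nonneg v _) hB) fun i _ => by
      have h2 := abv_sum_le_triC v (Finset.univ : Finset (Fin (n + 1)))
        (fun j => ξ i * η j * w (i, j))
        (max 1 (supNorm v ξ) * max 1 (supNorm v η) * supNorm v w) hB fun j _ => by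
          rw [map_mul, map_mul]
          exact mul_le_mul (mul_le_mul ((le_supNorm v ξ i).trans (le_max_right _ _))
            ((le_supNorm v η j).trans (le_max_right _ _)) (v.nonneg _) hξ)
            (le_supNorm v w (i, j)) (v.nonneg _) (mul_nonneg hξ hη)
      simpa using h2
  simpa using h1

end Forms

section Real

/-- `log a ≤ log C + log b` from `a ≤ C b`. -/
theorem log_le_add_of_le_mul {a b C : ℝ} (ha : 0 < a) (hb : 0 < b) (hC : 0 < C)
    (h : a ≤ C * b) : Real.log a ≤ Real.log C + Real.log b := by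
  rw [← Real.log_mul hC.ne' hb.ne']
  exact Real.log_le_log ha h

/-- The real-number core of the Gauss step. -/
theorem gauss_core {M : ℕ} (kap X Nsup Rr c1 c2 c4 c6 c9 : ℝ) (a b : Fin M → ℝ)
    (hkap : 0 ≤ kap) (ha : ∀ i, 0 ≤ a i) (hb : ∀ i, 0 ≤ b i)
    (hc1 : 1 ≤ c1) (hc2 : 1 ≤ c2) (hc6 : 1 ≤ c6) (hc9 : 1 ≤ c9)
    (hRr : Rr = kap * ∏ i, b i)
    (hβ : ∀ i, a i ≤ c2 * b i) (hlin : ∀ i, b i ≤ c6 * a i)
    (hG1 : Nsup ≤ c9 * Rr) (hG2 : Rr ≤ c9 * Nsup)
    (hα : X ≤ c1 * Nsup) (hN : Nsup ≤ c4 * X) :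
    kap * ∏ i, a i ≤ c2 ^ M * c9 * c4 * X ∧ X ≤ c1 * c9 * c6 ^ M * (kap * ∏ i, a i) := by
  have h0c2 : (0 : ℝ) ≤ c2 := le_trans zero_le_one hc2
  have h0c6 : (0 : ℝ) ≤ c6 := le_trans zero_le_one hc6
  have h0c9 : (0 : ℝ) ≤ c9 := le_trans zero_le_one hc9
  have h0c1 : (0 : ℝ) ≤ c1 := le_trans zero_le_one hc1
  have hpa : ∏ i, a i ≤ c2 ^ M * ∏ i, b i := by
    calc ∏ i, a i ≤ ∏ i, (c2 * b i) :=
          Finset.prod_le_prod (fun i _ => ha i) fun i _ => hβ i
      _ = c2 ^ M * ∏ i, b i := by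
          rw [Finset.prod_mul_distrib, Finset.prod_const, Finset.card_univ, Fintype.card_fin]
  have hpb : ∏ i, b i ≤ c6 ^ M * ∏ i, a i := by
    calc ∏ i, b i ≤ ∏ i, (c6 * a i) :=
          Finset.prod_le_prod (fun i _ => hb i) fun i _ => hlin i
      _ = c6 ^ M * ∏ i, a i := by
          rw [Finset.prod_mul_distrib, Finset.prod_const, Finset.card_univ, Fintype.card_fin]
  have hRr0 : 0 ≤ Rr := by
    rw [hRr]; exact mul_nonneg hkap (Finset.prod_nonneg fun i _ => hb i)
  constructor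
  · calc kap * ∏ i, a i ≤ kap * (c2 ^ M * ∏ i, b i) := mul_le_mul_of_nonneg_left hpa hkap
      _ = c2 ^ M * Rr := by rw [hRr]; ring
      _ ≤ c2 ^ M * (c9 * Nsup) := mul_le_mul_of_nonneg_left hG2 (pow_nonneg h0c2 _)
      _ ≤ c2 ^ M * (c9 * (c4 * X)) :=
          mul_le_mul_of_nonneg_left (mul_le_mul_of_nonneg_left hN h0c9) (pow_nonneg h0c2 _)
      _ = c2 ^ M * c9 * c4 * X := by ring
  · calc X ≤ c1 * Nsup := hα
      _ ≤ c1 * (c9 * Rr) := mul_le_mul_of_nonneg_left hG1 h0c1
      _ = c1 * c9 * (kap * ∏ i, b i) := by rw [hRr]; ring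
      _ ≤ c1 * c9 * (kap * (c6 ^ M * ∏ i, a i)) :=
          mul_le_mul_of_nonneg_left (mul_le_mul_of_nonneg_left hpb hkap)
            (mul_nonneg h0c1 h0c9)
      _ = c1 * c9 * c6 ^ M * (kap * ∏ i, a i) := by ring

end Real

section Lam

variable {K F : Type} [Field K] [Field F] [Algebra K F] [HasCanonicalDivisor (K := K) (F := F)]
variable (U : USetup K F)

/-- The uniform formula for the local pair function. -/
theorem lamAt_eq_bv (v : AbsoluteValue K ℝ) (P Q : Place K F) :
    lamAt v U.x U.t P Q =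
      -Real.log (supNorm v (bv U Q P) / (supNorm v (U.pt P) * supNorm v (U.pt Q))) := by
  classical
  by_cases h : P = Q
  · subst h
    rw [lamAt_self]
    unfold bv
    rw [if_pos rfl, pow_two]
    rfl
  · rw [lamAt_of_ne v U.x U.t h]
    unfold bv chord
    rw [if_neg h]
    rfl

/-- The local pairing of a divisor with a point. -/
theorem pairAt_single_right (v : AbsoluteValue K ℝ) (Z : Divisor K F) (Q : Place K F) :
    pairAt v U.x U.t Z (Finsupp.single Q 1) = Z.sum fun P e => (e : ℝ) * lamAt v U.x U.t P Q := by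
  rw [pairAt_def]
  refine Finsupp.sum_congr fun P _ => ?_
  rw [Finsupp.sum_single_index]
  · simp
  · simp

theorem bv_antisymm (Q P : Place K F) (i j : Fin (U.n + 1)) :
    bv U Q P (i, j) = -bv U Q P (j, i) := by
  classical
  unfold bv
  split_ifs <;> simp only [wedge] <;> ring

theorem wv_eq_omega (ξ η : Fin (U.n + 1) → K) (Q P : Place K F) :
    wv U ξ η Q P = omega ξ η (bv U Q P) := by
  classical
  unfold wv bv
  split_ifs
  · rw [Fermat.Agent.MW.Local.GenPosContract80.omega_wedge, dot_contr]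
    rfl
  · rw [Fermat.Agent.MW.Local.GenPosContract80.omega_wedge, dot_contr]
    rfl

end Lam

end Fermat.Agent.MW.Master.Numeric7
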