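/-
Program MW-H (S17), master theorem `U`.  helper7.

A FAMILY OF PENCILS WITH ITS PACKAGES, and its qualitative consequences:
* sections with nonzero coefficient vector are nonzero, have a unique zero divisor;
* `(α)`-qualitative: the norm form of a nonzero section is nonzero;
* the star formula in enumerated form;
* a pencil which is good for all bivectors of `(Z, Q)` has a nonvanishing cofactor at `Q`.
-/
import Mathlib
import Fermat.Agent.MW.Master.Numeric7
import Fermat.Agent.MW.Master.Enum7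

set_option autoImplicit false

open AlgebraicCurve

namespace Fermat.Agent.MW.Master.Family7

open Fermat.Agent.MW.Hadamard7 Fermat.Agent.MW.Spec.Defs7
open Fermat.Agent.MW.Spec.Bricks7 Fermat.Agent.MW.Spec.BricksU7
open Fermat.Agent.MW.Master.Star7 Fermat.Agent.MW.Master.Numeric7 Fermat.Agent.MW.Master.Enum7

variable {K F : Type} [Field K] [Field F] [Algebra K F] [HasCanonicalDivisor (K := K) (F := F)]
variable {U : USetup K F}

/-! ### Sections -/

theorem sec_eq_sum_smul {k : ℕ} (B : U.MonoBasis k) (c : Fin B.ℓ → K) :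
    B.sec c = ∑ j, c j • mono U.x (B.α j) := by
  simp only [USetup.MonoBasis.sec, Algebra.smul_def]

theorem sec_ne_zero {k : ℕ} (B : U.MonoBasis k) {c : Fin B.ℓ → K} (hc : c ≠ 0) :
    B.sec c ≠ 0 := by
  intro h
  rw [sec_eq_sum_smul] at h
  have := Fintype.linearIndependent_iff.mp B.indep c h
  exact hc (funext this)

theorem sec_mem {k : ℕ} (B : U.MonoBasis k) (c : Fin B.ℓ → K) : B.sec c ∈ U.R k := by
  rw [sec_eq_sum_smul, ← B.span]
  exact Submodule.sum_mem _ fun j _ =>
    Submodule.smul_mem _ _ (Submodule.subset_span ⟨j, rfl⟩)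

theorem isZeroDiv_unique {k : ℕ} {Z Z' : Divisor K F} {s : F} (h : U.IsZeroDiv k Z s)
    (h' : U.IsZeroDiv k Z' s) : Z = Z' :=
  Finsupp.ext fun P => by rw [h P, h' P]

/-- The zero divisor of a nonzero section is effective of degree `k m`. -/
theorem zeroDiv_facts (hZD : U.ZeroDivSpec) {k : ℕ} (B : U.MonoBasis k) {c : Fin B.ℓ → K}
    (hc : c ≠ 0) {Z : Divisor K F} (hZ : U.IsZeroDiv k Z (B.sec c)) :
    0 ≤ Z ∧ (Z.sum fun _ e => e) = ((k * U.m : ℕ) : ℤ) := by
  obtain ⟨Z', hZ', h0, hsum⟩ := hZD k (B.sec c) (sec_mem B c) (sec_ne_zero B hc)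
  rw [isZeroDiv_unique hZ hZ']
  exact ⟨h0, hsum⟩

/-! ### Polynomials -/

theorem coeff_sum_C_mul_X_pow {M : ℕ} (a : Fin (M + 1) → K) (j : Fin (M + 1)) :
    (∑ i : Fin (M + 1), Polynomial.C (a i) * Polynomial.X ^ (i : ℕ)).coeff j = a j := by
  rw [Polynomial.finsetSum_coeff]
  simp only [Polynomial.coeff_C_mul, Polynomial.coeff_X_pow]
  rw [Finset.sum_eq_single j]
  · simp
  · intro i _ hij
    have : (j : ℕ) ≠ (i : ℕ) := fun h => hij (Fin.ext h.symm)
    simp [this]
  · intro h; exact absurd (Finset.mem_univ j) h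

theorem linear_factor_ne_zero {a b : K} (h : a ≠ 0 ∨ b ≠ 0) :
    (Polynomial.C a * Polynomial.X - Polynomial.C b : Polynomial K) ≠ 0 := by
  intro h0
  rcases h with h | h
  · have := congrArg (fun p => Polynomial.coeff p 1) h0
    simp at this
    exact h this
  · have := congrArg (fun p => Polynomial.coeff p 0) h0
    simp at this
    exact h this

/-! ### Families -/

/-- A finite family of pencils together with their packages (for fixed `k`, `B`, `B'`). -/
structure Fam (U : USetup K F) {k : ℕ} (B : U.MonoBasis k) (B' : U.MonoBasis (k * (U.m - 1)))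
    (A : ℕ) where
  /-- the pencils -/
  π : Fin A → U.Pencil
  /-- the norm forms -/
  Np : Fin A → Fin (k * U.m + 1) → MvPolynomial (Fin B.ℓ) K
  /-- the cofactors -/
  Sp : Fin A → Fin B'.ℓ → MvPolynomial (Fin B.ℓ) K
  hNp : ∀ a i, (Np a i).IsHomogeneous U.m
  hSp : ∀ a b, (Sp a b).IsHomogeneous (U.m - 1)
  spec : ∀ (a : Fin A) (c : Fin B.ℓ → K), c ≠ 0 → ∀ Z : Divisor K F, U.IsZeroDiv k Z (B.sec c) →
    ∃ κ : K, κ ≠ 0 ∧
      (∑ i : Fin (k * U.m + 1),
          Polynomial.C (MvPolynomial.eval c (Np a i)) * Polynomial.X ^ (i : ℕ)) =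
        Polynomial.C κ * (Z.prod fun P e =>
          (Polynomial.C (dot (π a).ξ (U.pt P)) * Polynomial.X
            - Polynomial.C (dot (π a).η (U.pt P))) ^ e.toNat) ∧
      B.sec c * B'.sec (fun b => MvPolynomial.eval c (Sp a b)) =
        algebraMap K F κ * Z.prod fun P e => lin (contr (π a).ξ (π a).η (U.pt P)) U.x ^ e.toNat

/-- A family from the pencil package. -/
theorem exists_fam (hPP : U.PencilPackage) {k : ℕ} (hk : 0 < k) (B : U.MonoBasis k)
    (B' : U.MonoBasis (k * (U.m - 1))) {A : ℕ} (π : Fin A → U.Pencil) :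
    ∃ 𝔉 : Fam U B B' A, 𝔉.π = π := by
  choose Np Sp hNp hSp hspec using fun a => hPP (π a) k hk B B'
  refine ⟨⟨π, Np, Sp, hNp, hSp, fun a c hc Z hZ => ?_⟩, rfl⟩
  obtain ⟨⟨κ, hκ, h1, h1F⟩, h2⟩ := hspec a c hc Z hZ
  exact ⟨κ, hκ, h1, by rw [h2, h1F]⟩

variable {k : ℕ} {B : U.MonoBasis k} {B' : U.MonoBasis (k * (U.m - 1))} {A : ℕ}

/-- The value of the cofactor of the pencil `a` at a coordinate vector. -/
noncomputable def Fam.sig (𝔉 : Fam U B B' A) (a : Fin A) (c : Fin B.ℓ → K)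
    (q : Fin (U.n + 1) → K) : K :=
  B'.val (fun b => MvPolynomial.eval c (𝔉.Sp a b)) q

/-- `(α)`-qualitative: the norm form of a nonzero section does not vanish. -/
theorem Fam.np_ne_zero (𝔉 : Fam U B B' A) (hZD : U.ZeroDivSpec) (a : Fin A) {c : Fin B.ℓ → K}
    (hc : c ≠ 0) : ∃ i, MvPolynomial.eval c (𝔉.Np a i) ≠ 0 := by
  obtain ⟨Z, hZ, -, -⟩ := hZD k (B.sec c) (sec_mem B c) (sec_ne_zero B hc)
  obtain ⟨κ, hκ, h1, -⟩ := 𝔉.spec a c hc Z hZ
  by_contra hall
  simp only [not_exists, not_not] at hall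
  have hzero : (∑ i : Fin (k * U.m + 1),
      Polynomial.C (MvPolynomial.eval c (𝔉.Np a i)) * Polynomial.X ^ (i : ℕ)) = 0 :=
    Finset.sum_eq_zero fun i _ => by rw [hall i, map_zero, zero_mul]
  rw [hzero] at h1
  have hprod : (Z.prod fun P e =>
      (Polynomial.C (dot (𝔉.π a).ξ (U.pt P)) * Polynomial.X
        - Polynomial.C (dot (𝔉.π a).η (U.pt P))) ^ e.toNat) ≠ 0 := by
    rw [Finsupp.prod]
    exact Finset.prod_ne_zero_iff.mpr fun P _ =>
      pow_ne_zero _ (linear_factor_ne_zero ((𝔉.π a).bpf P))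
  exact (mul_ne_zero (by simpa using hκ) hprod) h1.symm

/-! ### Linear sections of a pencil are nonzero -/

theorem lin_eq_sum_smul (ℓ : Fin (U.n + 1) → K) : lin ℓ U.x = ∑ b, ℓ b • U.x b := by
  simp only [lin, Algebra.smul_def]

theorem lin_eq_zero_iff (ℓ : Fin (U.n + 1) → K) : lin ℓ U.x = 0 ↔ ℓ = 0 := by
  constructor
  · intro h
    rw [lin_eq_sum_smul] at h
    exact funext (Fintype.linearIndependent_iff.mp U.x_indep ℓ h)
  · rintro rfl
    simp [lin]

theorem lin_mem_R_one (ℓ : Fin (U.n + 1) → K) : lin ℓ U.x ∈ U.R 1 := by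
  have h1 : U.R 1 = riemannRochSpace (K := K) (F := F)
      (Finsupp.single U.inf ((2 * U.m₀ : ℕ) : ℤ)) := by
    unfold USetup.R USetup.m
    rw [one_mul]
  rw [h1, ← U.x_span, lin_eq_sum_smul]
  exact Submodule.sum_mem _ fun b _ =>
    Submodule.smul_mem _ _ (Submodule.subset_span ⟨b, rfl⟩)

/-- A nonzero linear section vanishes at some place. -/
theorem exists_zero_of_lin (hZD : U.ZeroDivSpec) (hMin : U.MinOrdSpec) (hLL : U.LeadLinear)
    (hm : 0 < U.m) {ℓ : Fin (U.n + 1) → K} (hℓ : ℓ ≠ 0) :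
    ∃ R : Place K F, dot ℓ (U.pt R) = 0 := by
  have hne : lin ℓ U.x ≠ 0 := fun h => hℓ ((lin_eq_zero_iff ℓ).mp h)
  obtain ⟨Z, hZ, hZ0, hsum⟩ := hZD 1 (lin ℓ U.x) (lin_mem_R_one ℓ) hne
  have hex : ∃ R ∈ Z.support, 0 < Z R := by
    by_contra hcon
    push Not at hcon
    have : (Z.sum fun _ e => e) ≤ 0 := by
      rw [Finsupp.sum]
      exact Finset.sum_nonpos fun R hR => hcon R hR
    rw [hsum] at this
    have hpos : (0 : ℤ) < ((1 * U.m : ℕ) : ℤ) := by
      rw [one_mul]; exact_mod_cast hm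
    omega
  obtain ⟨R, -, hR⟩ := hex
  refine ⟨R, ?_⟩
  by_contra hdot
  have h1 := ((hLL R ℓ).1 hdot).1
  have h2 := ord_eq_of_isZeroDiv U hMin hZ R
  rw [h1] at h2
  push_cast at h2
  omega

/-- The linear sections `ξ(p) η(x) - η(p) ξ(x)` of a base-point-free pencil are nonzero. -/
theorem lin_contr_ne_zero (hZD : U.ZeroDivSpec) (hMin : U.MinOrdSpec) (hLL : U.LeadLinear)
    (hm : 0 < U.m) (π : U.Pencil) (P : Place K F) :
    lin (contr π.ξ π.η (U.pt P)) U.x ≠ 0 := by
  intro h0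
  have hvec : contr π.ξ π.η (U.pt P) = 0 := (lin_eq_zero_iff _).mp h0
  have hb : ∀ b, dot π.ξ (U.pt P) * π.η b = dot π.η (U.pt P) * π.ξ b := fun b => by
    have := congrFun hvec b
    simp only [contr, Pi.zero_apply] at this
    exact sub_eq_zero.mp this
  rcases π.bpf P with hξ | hη
  · -- `η = λ ξ`
    obtain ⟨R, hR⟩ := exists_zero_of_lin hZD hMin hLL hm π.ξ_ne
    have hηR : dot π.η (U.pt R) = 0 := by
      have : dot π.ξ (U.pt P) * dot π.η (U.pt R) = dot π.η (U.pt P) * dot π.ξ (U.pt R) := by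
        generalize dot π.ξ (U.pt P) = a at hb ⊢
        generalize dot π.η (U.pt P) = a' at hb ⊢
        simp only [dot, Finset.mul_sum]
        refine Finset.sum_congr rfl fun b _ => ?_
        rw [← mul_assoc, hb b]; ring
      rw [hR, mul_zero] at this
      exact (mul_eq_zero.mp this).resolve_left hξ
    rcases π.bpf R with h | h
    · exact h hR
    · exact h hηR
  · -- `ξ = λ η`
    have hηne : π.η ≠ 0 := by
      intro h
      apply hη
      rw [h]; simp [dot]
    obtain ⟨R, hR⟩ := exists_zero_of_lin hZD hMin hLL hm hηne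
    have hξR : dot π.ξ (U.pt R) = 0 := by
      have : dot π.η (U.pt P) * dot π.ξ (U.pt R) = dot π.ξ (U.pt P) * dot π.η (U.pt R) := by
        generalize dot π.ξ (U.pt P) = a at hb ⊢
        generalize dot π.η (U.pt P) = a' at hb ⊢
        simp only [dot, Finset.mul_sum]
        refine Finset.sum_congr rfl fun b _ => ?_
        rw [← mul_assoc, ← hb b]; ring
      rw [hR, mul_zero] at this
      exact (mul_eq_zero.mp this).resolve_left hη
    rcases π.bpf R with h | h
    · exact h hξR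
    · exact h hR

end Fermat.Agent.MW.Master.Family7
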