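/-
Program MW-H (S17), master theorem `U`.  helper7.

EVALUATION OF HOMOGENEOUS POLYNOMIALS: scaling, and the bound
`|p(z)|_v ≤ polyBound v p · ‖z‖_v ^ d`.  The trivial absolute value is nice.
-/
import Mathlib
import Fermat.Agent.MW.Master.TameConst7
import Fermat.Agent.MW.Local.Chord2

set_option autoImplicit false

namespace Fermat.Agent.MW.Master.Homog7

open MvPolynomial Fermat.Agent.MW.Hadamard7 Fermat.Agent.MW.Spec.Defs7
open Fermat.Agent.MW.Local.Certificate7 Fermat.Agent.MW.Local.Chord2

variable {K : Type*} [Field K] {σ : Type*}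

theorem eval_smul_of_isHomogeneous [Fintype σ] {p : MvPolynomial σ K} {d : ℕ}
    (hp : p.IsHomogeneous d) (β : K) (z : σ → K) : eval (β • z) p = β ^ d * eval z p := by
  rw [eval_eq, eval_eq, Finset.mul_sum]
  refine Finset.sum_congr rfl fun m hm => ?_
  have hdeg : ∑ i ∈ m.support, m i = d := by
    have := hp (mem_support_iff.mp hm)
    simpa [Finsupp.weight_apply, Finsupp.sum] using this
  have : ∏ i ∈ m.support, (β • z) i ^ m i = β ^ d * ∏ i ∈ m.support, z i ^ m i := by
    simp only [Pi.smul_apply, smul_eq_mul, mul_pow, Finset.prod_mul_distrib]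
    rw [Finset.prod_pow_eq_pow_sum, hdeg]
  rw [this]
  ring

theorem abv_eval_le_of_isHomogeneous [Fintype σ] (v : AbsoluteValue K ℝ) {p : MvPolynomial σ K}
    {d : ℕ} (hp : p.IsHomogeneous d) (z : σ → K) :
    v (eval z p) ≤ polyBound v p * supNorm v z ^ d := by
  classical
  rcases eq_or_ne z 0 with rfl | hz
  · rcases Nat.eq_zero_or_pos d with rfl | hd
    · rw [pow_zero, mul_one]
      exact abv_eval_le_polyBound v p 0 fun i => by simp
    · have h0 : eval (0 : σ → K) p = 0 := by
        have := eval_smul_of_isHomogeneous hp (0 : K) (0 : σ → K)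
        rwa [zero_smul, zero_pow hd.ne', zero_mul] at this
      rw [h0, map_zero]
      exact mul_nonneg (polyBound_nonneg v p) (pow_nonneg (supNorm_nonneg v _) _)
  · have hne : Nonempty σ := by
      by_contra h
      rw [not_nonempty_iff] at h
      exact hz (Subsingleton.elim _ _)
    obtain ⟨j₀, hj₀⟩ := exists_eq_supNorm v z
    have hpos : 0 < supNorm v z := (supNorm_pos_iff v z).mpr hz
    have hzj : z j₀ ≠ 0 := by
      intro h; rw [h, map_zero] at hj₀; exact hpos.ne hj₀
    have hzz : z = z j₀ • ((z j₀)⁻¹ • z) := by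
      rw [smul_smul, mul_inv_cancel₀ hzj, one_smul]
    have hunit : ∀ i, v (((z j₀)⁻¹ • z) i) ≤ 1 := by
      intro i
      rw [Pi.smul_apply, smul_eq_mul, map_mul, map_inv₀, hj₀, inv_mul_le_iff₀ hpos, mul_one]
      exact le_supNorm v z i
    rw [hzz, eval_smul_of_isHomogeneous hp, map_mul, map_pow, hj₀, ← hzz, mul_comm]
    exact mul_le_mul_of_nonneg_right (abv_eval_le_polyBound v p _ hunit)
      (pow_nonneg hpos.le _)

/-- The trivial absolute value is nonarchimedean, hence nice. -/
theorem isNiceAbs_trivial [DecidablePred fun x : K => x = 0] :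
    IsNiceAbs (AbsoluteValue.trivial : AbsoluteValue K ℝ) := by
  left
  intro x y
  show (AbsoluteValue.trivial : AbsoluteValue K ℝ) (x + y) ≤
    max ((AbsoluteValue.trivial : AbsoluteValue K ℝ) x)
      ((AbsoluteValue.trivial : AbsoluteValue K ℝ) y)
  by_cases hx : x = 0
  · subst hx
    rw [zero_add]
    exact le_max_right _ _
  · rw [AbsoluteValue.trivial_apply hx]
    by_cases hxy : x + y = 0
    · rw [hxy, map_zero]
      exact le_max_of_le_left zero_le_one
    · rw [AbsoluteValue.trivial_apply hxy]
      exact le_max_left _ _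

end Fermat.Agent.MW.Master.Homog7
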