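/-
Program MW-H (S17), master theorem `U`.  helper7.

THE THREE CERTIFICATES, with tame constants, in homogeneous form:
(α) `‖c‖^m ≤ C · max_i |Np_i(c)|`          (the norm form does not vanish for `c ≠ 0`);
(β) `‖q‖ ≤ C · max(|ξ(q)|, |η(q)|)`        (a pencil without base point, `q` a point of the curve);
(γ) `‖c‖^d ‖q‖^k' ≤ C · max_a |S*_a(c)(q)|` (the cofactors have no common zero on the curve).
-/
import Mathlib
import Fermat.Agent.MW.Spec.BricksU7
import Fermat.Agent.MW.Master.BiHom7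
import Fermat.Agent.MW.Master.Homog7

set_option autoImplicit false

open AlgebraicCurve

namespace Fermat.Agent.MW.Master.Certs7

open MvPolynomial Fermat.Agent.MW.Hadamard7 Fermat.Agent.MW.Spec.Defs7
open Fermat.Agent.MW.Spec.Bricks7 Fermat.Agent.MW.Spec.BricksU7
open Fermat.Agent.MW.Master.TameConst7 Fermat.Agent.MW.Master.BiHom7
open Fermat.Agent.MW.Master.Homog7 Fermat.Agent.MW.Local.Chord2

/-! ### (α) -/

section Alpha

variable {K : Type*} [Field K] [IsAlgClosed K]

theorem alpha_bound {ℓ M : ℕ} (Np : Fin M → MvPolynomial (Fin ℓ) K) (m : ℕ)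
    (hhom : ∀ i, (Np i).IsHomogeneous m)
    (hqual : ∀ c : Fin ℓ → K, c ≠ 0 → ∃ i, eval c (Np i) ≠ 0) :
    ∃ C : AbsoluteValue K ℝ → ℝ, IsTameConst C ∧
      ∀ (v : AbsoluteValue K ℝ) (c : Fin ℓ → K), c ≠ 0 → ∀ Bd : ℝ,
        (∀ i, v (eval c (Np i)) ≤ Bd) → supNorm v c ^ m ≤ C v * Bd := by
  classical
  obtain ⟨C, hC, hb⟩ := bihom_lower_bound (σ₁ := Fin ℓ) (σ₂ := Fin 1)
    (fun i => rename Sum.inl (Np i)) m 0
    (fun i c y α β => by
      rw [eval_rename, eval_rename]
      have h1 : (Sum.elim (α • c) (β • y) : Fin ℓ ⊕ Fin 1 → K) ∘ Sum.inl = α • c := rfl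
      have h2 : (Sum.elim c y : Fin ℓ ⊕ Fin 1 → K) ∘ Sum.inl = c := rfl
      rw [h1, h2, eval_smul_of_isHomogeneous (hhom i), pow_zero, mul_one])
    ∅ (fun p hp => absurd hp (Set.notMem_empty p))
    (fun c y h _ => by
      left
      by_contra hc
      obtain ⟨i, hi⟩ := hqual c hc
      apply hi
      have := h i
      rwa [eval_rename] at this)
  refine ⟨C, hC, fun v c hc Bd hBd => ?_⟩
  have hy : (fun _ : Fin 1 => (1 : K)) ≠ 0 := fun h => one_ne_zero (congrFun h 0)
  have := hb v c (fun _ => 1) hc hy (fun p hp => absurd hp (Set.notMem_empty p)) Bd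
    (fun i => by
      rw [eval_rename]
      exact hBd i)
  simpa using this

end Alpha

variable {K F : Type} [Field K] [Field F] [Algebra K F] [HasCanonicalDivisor (K := K) (F := F)]
variable (U : USetup K F)

/-- The homogeneous relations of the embedding tuple. -/
def Rel : Set (MvPolynomial (Fin (U.n + 1)) K) :=
  {p | (∃ d : ℕ, p.IsHomogeneous d) ∧ aeval U.x p = 0}

/-- E2 (helper48's `ConePointsNZ`) specialised to the standing tuple. -/
def ConeU : Prop :=
  ∀ y : Fin (U.n + 1) → K, y ≠ 0 → (∀ p ∈ Rel U, eval y p = 0) →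
    ∃ (Q : Place K F) (c : K), c ≠ 0 ∧ y = c • U.pt Q

theorem rel_smul {p : MvPolynomial (Fin (U.n + 1)) K} (hp : p ∈ Rel U)
    (y : Fin (U.n + 1) → K) (β : K) (h : eval y p = 0) : eval (β • y) p = 0 := by
  obtain ⟨⟨d, hd⟩, -⟩ := hp
  rw [eval_smul_of_isHomogeneous hd, h, mul_zero]

theorem rel_pt (hCM : U.ConeMem) (Q : Place K F) : ∀ p ∈ Rel U, eval (U.pt Q) p = 0 :=
  fun p hp => hCM Q p hp.1 hp.2

/-- The linear form with coefficient vector `ξ` as a polynomial. -/
noncomputable def linForm {n : ℕ} (ξ : Fin (n + 1) → K) : MvPolynomial (Fin (n + 1)) K :=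
  ∑ b, C (ξ b) * X b

theorem eval_linForm {n : ℕ} (ξ y : Fin (n + 1) → K) : eval y (linForm ξ) = dot ξ y := by
  simp [linForm, dot]

theorem dot_smul {n : ℕ} (ξ y : Fin (n + 1) → K) (β : K) : dot ξ (β • y) = β * dot ξ y := by
  simp only [dot, Pi.smul_apply, smul_eq_mul, Finset.mul_sum]
  refine Finset.sum_congr rfl fun b _ => ?_
  ring

/-! ### (β) -/

theorem beta_bound [IsAlgClosed K] (hCone : ConeU U) (hCM : U.ConeMem) (π : U.Pencil) :
    ∃ C : AbsoluteValue K ℝ → ℝ, IsTameConst C ∧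
      ∀ (v : AbsoluteValue K ℝ) (Q : Place K F),
        supNorm v (U.pt Q) ≤ C v * max (v (dot π.ξ (U.pt Q))) (v (dot π.η (U.pt Q))) := by
  classical
  let g : Fin 2 → MvPolynomial (Fin 1 ⊕ Fin (U.n + 1)) K :=
    fun i => rename Sum.inr (linForm (if i = 0 then π.ξ else π.η))
  have hgeval : ∀ (i : Fin 2) (c : Fin 1 → K) (y : Fin (U.n + 1) → K),
      eval (Sum.elim c y) (g i) = dot (if i = 0 then π.ξ else π.η) y := by
    intro i c y
    simp only [g]
    rw [eval_rename]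
    have h2 : (Sum.elim c y : Fin 1 ⊕ Fin (U.n + 1) → K) ∘ Sum.inr = y := rfl
    rw [h2, eval_linForm]
  obtain ⟨C, hC, hb⟩ := bihom_lower_bound (σ₁ := Fin 1) (σ₂ := Fin (U.n + 1)) g 0 1
    (fun i c y α β => by
      rw [hgeval, hgeval, dot_smul, pow_zero, one_mul, pow_one])
    (Rel U) (fun p hp y β h => rel_smul U hp y β h)
    (fun c y h hrel => by
      right
      by_contra hy
      obtain ⟨Q, l, hl, rfl⟩ := hCone y hy hrel
      have h0 := h 0
      have h1 := h 1
      rw [hgeval, dot_smul] at h0 h1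
      simp only [if_true] at h0
      have h1' : l * dot π.η (U.pt Q) = 0 := by simpa using h1
      rcases π.bpf Q with hb | hb
      · exact hb ((mul_eq_zero.mp h0).resolve_left hl)
      · exact hb ((mul_eq_zero.mp h1').resolve_left hl))
  refine ⟨C, hC, fun v Q => ?_⟩
  have hc : (fun _ : Fin 1 => (1 : K)) ≠ 0 := fun h => one_ne_zero (congrFun h 0)
  have hq : U.pt Q ≠ 0 := by
    intro h0
    rcases π.bpf Q with hb | hb
    · exact hb (by rw [h0]; simp [dot])
    · exact hb (by rw [h0]; simp [dot])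
  have := hb v (fun _ => 1) (U.pt Q) hc hq (rel_pt U hCM Q)
    (max (v (dot π.ξ (U.pt Q))) (v (dot π.η (U.pt Q))))
    (fun i => by
      rw [hgeval]
      fin_cases i
      · simp
      · simp)
  simpa using this

/-! ### (γ) -/

variable {U}

theorem monoK_smul (β : K) (q : Fin (U.n + 1) → K) (α : Fin (U.n + 1) → ℕ) :
    monoK (β • q) α = β ^ (∑ i, α i) * monoK q α := by
  simp only [monoK, Pi.smul_apply, smul_eq_mul, mul_pow, Finset.prod_mul_distrib]
  rw [Finset.prod_pow_eq_pow_sum]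

theorem val_smul_right {k : ℕ} (B : U.MonoBasis k) (c : Fin B.ℓ → K) (β : K)
    (q : Fin (U.n + 1) → K) : B.val c (β • q) = β ^ k * B.val c q := by
  simp only [USetup.MonoBasis.val, Finset.mul_sum]
  refine Finset.sum_congr rfl fun j _ => ?_
  rw [monoK_smul, B.deg j]
  ring

variable (U)

theorem gamma_bound [IsAlgClosed K] (hCone : ConeU U) (hCM : U.ConeMem)
    (hpt : ∀ Q : Place K F, U.pt Q ≠ 0) {k k' : ℕ}
    (B : U.MonoBasis k) (B' : U.MonoBasis k') {A : ℕ}
    (Sp : Fin A → Fin B'.ℓ → MvPolynomial (Fin B.ℓ) K) (d : ℕ)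
    (hhom : ∀ a b, (Sp a b).IsHomogeneous d)
    (hqual : ∀ c : Fin B.ℓ → K, c ≠ 0 → ∀ Q : Place K F,
      ∃ a, B'.val (fun b => eval c (Sp a b)) (U.pt Q) ≠ 0) :
    ∃ C : AbsoluteValue K ℝ → ℝ, IsTameConst C ∧
      ∀ (v : AbsoluteValue K ℝ) (c : Fin B.ℓ → K), c ≠ 0 → ∀ (Q : Place K F) (Bd : ℝ),
        (∀ a, v (B'.val (fun b => eval c (Sp a b)) (U.pt Q)) ≤ Bd) →
          supNorm v c ^ d * supNorm v (U.pt Q) ^ k' ≤ C v * Bd := by
  classical
  let g : Fin A → MvPolynomial (Fin B.ℓ ⊕ Fin (U.n + 1)) K := fun a =>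
    ∑ b, rename Sum.inl (Sp a b) * ∏ i, X (Sum.inr i) ^ (B'.α b i)
  have hgeval : ∀ (a : Fin A) (c : Fin B.ℓ → K) (y : Fin (U.n + 1) → K),
      eval (Sum.elim c y) (g a) = B'.val (fun b => eval c (Sp a b)) y := by
    intro a c y
    simp only [g, map_sum, map_mul, map_prod, map_pow, eval_X, Sum.elim_inr, eval_rename,
      USetup.MonoBasis.val, monoK]
    rfl
  have hvalhom : ∀ (a : Fin A) (c : Fin B.ℓ → K) (y : Fin (U.n + 1) → K) (α β : K),
      B'.val (fun b => eval (α • c) (Sp a b)) (β • y) =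
        α ^ d * β ^ k' * B'.val (fun b => eval c (Sp a b)) y := by
    intro a c y α β
    rw [val_smul_right]
    simp only [USetup.MonoBasis.val, Finset.mul_sum]
    refine Finset.sum_congr rfl fun b _ => ?_
    rw [eval_smul_of_isHomogeneous (hhom a b)]
    ring
  obtain ⟨C, hC, hb⟩ := bihom_lower_bound (σ₁ := Fin B.ℓ) (σ₂ := Fin (U.n + 1)) g d k'
    (fun a c y α β => by rw [hgeval, hgeval, hvalhom])
    (Rel U) (fun p hp y β h => rel_smul U hp y β h)
    (fun c y h hrel => by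
      by_contra hcon
      rw [not_or] at hcon
      obtain ⟨Q, l, hl, rfl⟩ := hCone y hcon.2 hrel
      obtain ⟨a, ha⟩ := hqual c hcon.1 Q
      apply ha
      have := h a
      rw [hgeval, val_smul_right] at this
      exact (mul_eq_zero.mp this).resolve_left (pow_ne_zero _ hl))
  refine ⟨C, hC, fun v c hc Q Bd hBd => ?_⟩
  have hq : U.pt Q ≠ 0 := hpt Q
  exact hb v c (U.pt Q) hc hq (rel_pt U hCM Q) Bd fun a => by rw [hgeval]; exact hBd a

end Fermat.Agent.MW.Master.Certs7
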