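/-
Program MW-H (S17), master theorem `U`.  helper7.

THE TRIVIAL UPPER BOUNDS, with tame constants: norm forms, cofactors, linear forms, 2-forms.
-/
import Mathlib
import Fermat.Agent.MW.Master.Numeric7
import Fermat.Agent.MW.Master.Homog7
import Fermat.Agent.MW.Master.Certs7

set_option autoImplicit false

open AlgebraicCurve

namespace Fermat.Agent.MW.Master.Upper7

open MvPolynomial Fermat.Agent.MW.Hadamard7 Fermat.Agent.MW.Spec.Defs7
open Fermat.Agent.MW.Spec.Bricks7 Fermat.Agent.MW.Spec.BricksU7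
open Fermat.Agent.MW.Master.TameConst7 Fermat.Agent.MW.Master.Homog7
open Fermat.Agent.MW.Master.Numeric7 Fermat.Agent.MW.Local.Certificate7
open Fermat.Agent.MW.Local.Chord2 Fermat.Agent.MW.Local.GenPos2 Fermat.Agent.MW.Master.Certs7

section Poly

variable {K : Type*} [Field K]

/-- H4: a finite family of homogeneous polynomials of degree `m` is bounded by `C ‖c‖^m`. -/
theorem exists_upper_family {σ ι : Type*} [Fintype σ] [Finite ι] (p : ι → MvPolynomial σ K)
    (m : ℕ) (hp : ∀ i, (p i).IsHomogeneous m) :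
    ∃ C : AbsoluteValue K ℝ → ℝ, IsTameConst C ∧
      ∀ (v : AbsoluteValue K ℝ) (c : σ → K) (i : ι), v (eval c (p i)) ≤ C v * supNorm v c ^ m := by
  classical
  obtain ⟨D, hD, hle⟩ := tame_fintypeSup (fun i v => max 1 (polyBound v (p i)))
    fun i => isTameConst_polyBound (p i)
  refine ⟨D, hD, fun v c i => ?_⟩
  refine (abv_eval_le_of_isHomogeneous v (hp i) c).trans ?_
  exact mul_le_mul_of_nonneg_right ((le_max_right _ _).trans (hle i v))
    (pow_nonneg (supNorm_nonneg v c) _)

end Poly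

variable {K F : Type} [Field K] [Field F] [Algebra K F] [HasCanonicalDivisor (K := K) (F := F)]
variable {U : USetup K F}

theorem abv_monoK_le (v : AbsoluteValue K ℝ) (q : Fin (U.n + 1) → K) (α : Fin (U.n + 1) → ℕ) :
    v (monoK q α) ≤ supNorm v q ^ (∑ i, α i) := by
  unfold monoK
  rw [map_prod, ← Finset.prod_pow_eq_pow_sum]
  refine Finset.prod_le_prod (fun i _ => v.nonneg _) fun i _ => ?_
  rw [map_pow]
  exact pow_le_pow_left₀ (v.nonneg _) (le_supNorm v q i) _

/-- H5: the cofactor values are bounded by `C ‖c‖^d ‖q‖^k'`. -/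
theorem exists_upper_sig {k k' : ℕ} (B : U.MonoBasis k) (B' : U.MonoBasis k')
    (Sp : Fin B'.ℓ → MvPolynomial (Fin B.ℓ) K) (d : ℕ) (hSp : ∀ b, (Sp b).IsHomogeneous d) :
    ∃ C : AbsoluteValue K ℝ → ℝ, IsTameConst C ∧
      ∀ (v : AbsoluteValue K ℝ) (c : Fin B.ℓ → K) (q : Fin (U.n + 1) → K),
        v (B'.val (fun b => eval c (Sp b)) q) ≤ C v * (supNorm v c ^ d * supNorm v q ^ k') := by
  obtain ⟨D, hD, hle⟩ := exists_upper_family Sp d hSp
  refine ⟨fun v => triC v (B'.ℓ + 1) * D v,
    tame_mul (isTameConst_triC (Nat.le_add_left 1 _)) hD, fun v c q => ?_⟩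
  have hB : 0 ≤ D v * (supNorm v c ^ d * supNorm v q ^ k') :=
    mul_nonneg (tame_pos hD v).le
      (mul_nonneg (pow_nonneg (supNorm_nonneg v c) _) (pow_nonneg (supNorm_nonneg v q) _))
  have h1 := abv_sum_le_triC v (Finset.univ : Finset (Fin B'.ℓ))
    (fun b => eval c (Sp b) * monoK q (B'.α b)) _ hB fun b _ => by
      rw [map_mul]
      have h2 := abv_monoK_le v q (B'.α b)
      rw [B'.deg b] at h2
      calc v (eval c (Sp b)) * v (monoK q (B'.α b))
          ≤ (D v * supNorm v c ^ d) * supNorm v q ^ k' :=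
            mul_le_mul (hle v c b) h2 (v.nonneg _)
              (mul_nonneg (tame_pos hD v).le (pow_nonneg (supNorm_nonneg v c) _))
        _ = D v * (supNorm v c ^ d * supNorm v q ^ k') := by ring
  rw [Finset.card_univ, Fintype.card_fin] at h1
  unfold USetup.MonoBasis.val
  refine h1.trans ?_
  rw [mul_assoc]
  exact mul_le_mul_of_nonneg_right (triC_mono v (Nat.le_succ _)) hB

/-- H6: both linear forms of a pencil are bounded by `C ‖p‖`. -/
theorem exists_upper_dot (ξ η : Fin (U.n + 1) → K) :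
    ∃ C : AbsoluteValue K ℝ → ℝ, IsTameConst C ∧
      ∀ (v : AbsoluteValue K ℝ) (p : Fin (U.n + 1) → K),
        max (v (dot η p)) (v (dot ξ p)) ≤ C v * supNorm v p := by
  refine ⟨fun v => triC v (U.n + 1) * (max 1 (supNorm v ξ) * max 1 (supNorm v η)),
    tame_mul (isTameConst_triC (Nat.le_add_left 1 _))
      (tame_mul (isTameConst_vecMax ξ) (isTameConst_vecMax η)), fun v p => ?_⟩
  have h1ξ : (1 : ℝ) ≤ max 1 (supNorm v ξ) := le_max_left _ _
  have h1η : (1 : ℝ) ≤ max 1 (supNorm v η) := le_max_left _ _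
  have ht := triC_nonneg v (U.n + 1)
  have hp := supNorm_nonneg v p
  refine max_le ?_ ?_
  · refine (abv_dot_le v η p).trans ?_
    rw [mul_assoc]
    refine mul_le_mul_of_nonneg_left ?_ ht
    refine mul_le_mul_of_nonneg_right ?_ hp
    calc max 1 (supNorm v η) = 1 * max 1 (supNorm v η) := (one_mul _).symm
      _ ≤ max 1 (supNorm v ξ) * max 1 (supNorm v η) :=
        mul_le_mul_of_nonneg_right h1ξ (le_trans zero_le_one h1η)
  · refine (abv_dot_le v ξ p).trans ?_
    rw [mul_assoc]
    refine mul_le_mul_of_nonneg_left ?_ ht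
    refine mul_le_mul_of_nonneg_right ?_ hp
    calc max 1 (supNorm v ξ) = max 1 (supNorm v ξ) * 1 := (mul_one _).symm
      _ ≤ max 1 (supNorm v ξ) * max 1 (supNorm v η) :=
        mul_le_mul_of_nonneg_left h1η (le_trans zero_le_one h1ξ)

/-- H7: the 2-form of a pencil is bounded by `C ‖w‖`. -/
theorem exists_upper_omega (ξ η : Fin (U.n + 1) → K) :
    ∃ C : AbsoluteValue K ℝ → ℝ, IsTameConst C ∧
      ∀ (v : AbsoluteValue K ℝ) (w : Fin (U.n + 1) × Fin (U.n + 1) → K),
        v (omega ξ η w) ≤ C v * supNorm v w := by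
  refine ⟨fun v => triC v (U.n + 1) * (triC v (U.n + 1) *
      (max 1 (supNorm v ξ) * max 1 (supNorm v η))),
    tame_mul (isTameConst_triC (Nat.le_add_left 1 _))
      (tame_mul (isTameConst_triC (Nat.le_add_left 1 _))
        (tame_mul (isTameConst_vecMax ξ) (isTameConst_vecMax η))), fun v w => ?_⟩
  refine (abv_omega_le v ξ η w).trans (le_of_eq ?_)
  ring

end Fermat.Agent.MW.Master.Upper7
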