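/-
Program MW-H (S17), master theorem `U`, brick UB7a.  helper7.

THE MASTER THEOREM FOR SECTIONS (`U.SectionUD`), assembled from the landed bricks:
pencil package (UP), zero divisors (UB4z), leading terms (UB4), cone (E2), very ampleness (E3),
pencils in general position (L2'), Gauss/Mahler for binary forms (L3), monomial bases (UB0).
-/
import Mathlib
import Fermat.Agent.MW.Master.Family7
import Fermat.Agent.MW.Master.Upper7
import Fermat.Agent.MW.Master.Certs7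

set_option autoImplicit false

open AlgebraicCurve

namespace Fermat.Agent.MW.Master.SectionUD7

open MvPolynomial Fermat.Agent.MW.Hadamard7 Fermat.Agent.MW.Spec.Defs7
open Fermat.Agent.MW.Spec.Bricks7 Fermat.Agent.MW.Spec.BricksU7
open Fermat.Agent.MW.Master.TameConst7 Fermat.Agent.MW.Master.Homog7
open Fermat.Agent.MW.Master.Numeric7 Fermat.Agent.MW.Master.Star7
open Fermat.Agent.MW.Master.Family7 Fermat.Agent.MW.Master.Upper7
open Fermat.Agent.MW.Master.Certs7 Fermat.Agent.MW.Master.Enum7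
open Fermat.Agent.MW.Local.Chord2 Fermat.Agent.MW.Local.GenPosContract80

/-! ### The Gauss constant -/

section Gauss

variable {K : Type} [Field K]

/-- L3 with a tame constant. -/
theorem exists_gauss_const (hG : GaussBinary) (M : ℕ) :
    ∃ c9 : AbsoluteValue K ℝ → ℝ, IsTameConst c9 ∧ ∀ v : AbsoluteValue K ℝ, IsNiceAbs v →
      ∀ (κ : K) (lam mu : Fin M → K),
        (⨆ j : Fin (M + 1), v ((Polynomial.C κ * ∏ i,
            (Polynomial.C (mu i) * Polynomial.X - Polynomial.C (lam i))).coeff j)) ≤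
          c9 v * (v κ * ∏ i, max (v (lam i)) (v (mu i))) ∧
        v κ * ∏ i, max (v (lam i)) (v (mu i)) ≤
          c9 v * ⨆ j : Fin (M + 1), v ((Polynomial.C κ * ∏ i,
            (Polynomial.C (mu i) * Polynomial.X - Polynomial.C (lam i))).coeff j) := by
  obtain ⟨cg, hcg, h⟩ := hG M
  refine ⟨archConst cg, isTameConst_archConst hcg, fun v hv κ lam mu => ?_⟩
  have h' := h v hv κ lam mu
  dsimp only at h'
  obtain ⟨h1, h2, h3⟩ := h'
  by_cases hna : IsNonarchimedean v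
  · rw [archConst_of_nonarch hna, one_mul, one_mul]
    exact ⟨(h1 hna).le, (h1 hna).ge⟩
  · rw [archConst_of_not_nonarch hna]
    exact ⟨h2, h3⟩

end Gauss

variable {K F : Type} [Field K] [Field F] [Algebra K F] [HasCanonicalDivisor (K := K) (F := F)]
variable {U : USetup K F}

theorem bv_ne_zero (hVA : U.VeryAmpleU) (Q P : Place K F) : bv U Q P ≠ 0 := by
  classical
  unfold bv
  split_ifs with h
  · exact hVA.2.2 Q
  · exact hVA.2.1 P Q h

/-- The zeros of a section, enumerated with multiplicity. -/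
theorem exists_pts (hZD : U.ZeroDivSpec) {k : ℕ} (B : U.MonoBasis k) {c : Fin B.ℓ → K}
    (hc : c ≠ 0) {Z : Divisor K F} (hZ : U.IsZeroDiv k Z (B.sec c)) :
    ∃ pts : Fin (k * U.m) → Place K F, (∀ i, pts i ∈ Z.support) ∧
      (∀ P ∈ Z.support, ∃ i, pts i = P) ∧
      ∀ {R : Type} [CommMonoid R] (f : Place K F → R),
        ∏ i, f (pts i) = Z.prod fun P e => f P ^ e.toNat := by
  obtain ⟨hZ0, hZsum⟩ := zeroDiv_facts hZD B hc hZ
  have hZnn : ∀ P, 0 ≤ Z P := fun P => by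
    have := Finsupp.le_def.mp hZ0 P
    simpa using this
  obtain ⟨M', pts, hM', hmem, hsurj, hprod⟩ := exists_enum Z hZnn
  obtain rfl : M' = k * U.m := by exact_mod_cast hM'.trans hZsum
  exact ⟨pts, hmem, hsurj, hprod⟩

/-- A pencil of a family in general position which is good for all zeros seen from `Q`. -/
theorem exists_good_pencil {A M : ℕ} {ξ η : Fin A → Fin (U.n + 1) → K}
    {c8 : AbsoluteValue K ℝ → ℝ} (hgen : IsGenPos ξ η c8)
    (hA : M * ((U.n + 1).choose 2 - 1) < A) (v : AbsoluteValue K ℝ) (hv : IsNiceAbs v)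
    (Q : Place K F) (pts : Fin M → Place K F) :
    ∃ a : Fin A, ∀ i, supNorm v (bv U Q (pts i)) ≤ c8 v * v (wv U (ξ a) (η a) Q (pts i)) := by
  have hA' : M * ((Fintype.card (Fin (U.n + 1))).choose 2 - 1) < A := by
    rwa [Fintype.card_fin]
  obtain ⟨a, ha⟩ := IsGenPos.exists_good hgen hA' v hv (fun i => bv U Q (pts i))
    (fun i j l => bv_antisymm U Q (pts i) j l)
  exact ⟨a, fun i => by rw [wv_eq_omega]; exact ha i⟩

variable {k : ℕ} {B : U.MonoBasis k} {B' : U.MonoBasis (k * (U.m - 1))} {A : ℕ}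

/-- The algebraic facts for one pencil of a family, in enumerated form. -/
theorem pencil_facts (hLM : LeadMul K F) (hMin : U.MinOrdSpec) (hLL : U.LeadLinear)
    (hSV : U.SecValue) (hZD : U.ZeroDivSpec) (hm : 0 < U.m) (𝔉 : Fam U B B' A) (a : Fin A)
    {c : Fin B.ℓ → K} (hc : c ≠ 0) {Z : Divisor K F} (hZ : U.IsZeroDiv k Z (B.sec c))
    (Q : Place K F) (pts : Fin (k * U.m) → Place K F) (hmem : ∀ i, pts i ∈ Z.support)
    (hsurj : ∀ P ∈ Z.support, ∃ i, pts i = P)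
    (hprod : ∀ {R : Type} [CommMonoid R] (f : Place K F → R),
        ∏ i, f (pts i) = Z.prod fun P e => f P ^ e.toNat) :
    ∃ κ : K, κ ≠ 0 ∧
      (∀ j : Fin (k * U.m + 1), (Polynomial.C κ * ∏ i,
          (Polynomial.C (dot (𝔉.π a).ξ (U.pt (pts i))) * Polynomial.X
            - Polynomial.C (dot (𝔉.π a).η (U.pt (pts i))))).coeff j = eval c (𝔉.Np a j)) ∧
      (𝔉.sig a c (U.pt Q) ≠ 0 ↔ ∀ i, wv U (𝔉.π a).ξ (𝔉.π a).η Q (pts i) ≠ 0) ∧
      (𝔉.sig a c (U.pt Q) ≠ 0 →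
        leadAt Q (U.t Q) (B.sec c) * 𝔉.sig a c (U.pt Q) =
          κ * ∏ i, wv U (𝔉.π a).ξ (𝔉.π a).η Q (pts i)) := by
  classical
  obtain ⟨hZ0, hZsum⟩ := zeroDiv_facts hZD B hc hZ
  obtain ⟨κ, hκ, h1, h2⟩ := 𝔉.spec a c hc Z hZ
  refine ⟨κ, hκ, ?_, ?_⟩
  · intro j
    have := hprod (R := Polynomial K) (fun P =>
      Polynomial.C (dot (𝔉.π a).ξ (U.pt P)) * Polynomial.X
        - Polynomial.C (dot (𝔉.π a).η (U.pt P)))
    rw [this, ← h1, coeff_sum_C_mul_X_pow]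
  · have hs := sec_ne_zero B hc
    have hkk : k + k * (U.m - 1) = k * U.m := by
      obtain ⟨m', hm'⟩ : ∃ m', U.m = m' + 1 := ⟨U.m - 1, by omega⟩
      rw [hm']
      simp only [Nat.add_sub_cancel]
      ring
    have hZsum' : (Z.sum fun _ e => e) = ((k + k * (U.m - 1) : ℕ) : ℤ) := by
      rw [hkk]; exact hZsum
    have hstar := star U hLM hMin hLL hSV (𝔉.π a).ξ (𝔉.π a).η B B' c
      (fun b => eval c (𝔉.Sp a b)) Z hZ hZ0 hZsum' κ hκ hs h2
      (fun P _ => lin_contr_ne_zero hZD hMin hLL hm (𝔉.π a) P) Q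
    have hall : (∀ P ∈ Z.support, wv U (𝔉.π a).ξ (𝔉.π a).η Q P ≠ 0) ↔
        ∀ i, wv U (𝔉.π a).ξ (𝔉.π a).η Q (pts i) ≠ 0 :=
      ⟨fun h i => h _ (hmem i), fun h P hP => by
        obtain ⟨i, rfl⟩ := hsurj P hP
        exact h i⟩
    have hpr : (Z.prod fun P e => wv U (𝔉.π a).ξ (𝔉.π a).η Q P ^ e.toNat) =
        ∏ i, wv U (𝔉.π a).ξ (𝔉.π a).η Q (pts i) :=
      (hprod (R := K) fun P => wv U (𝔉.π a).ξ (𝔉.π a).η Q P).symm
    refine ⟨hstar.1.trans hall, fun h => ?_⟩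
    rw [← hpr]
    exact hstar.2 h


/-! ### The real-number core of the final estimate -/

theorem final_real {M : ℕ} (k k' m m1 : ℝ) (hM : (M : ℝ) = k + k') (hm : m = m1 + 1)
    (lΛ ls lκ lc lq : ℝ) (lp lb lw : Fin M → ℝ) (L1 L2 L3 L4 L5 L6 L7 L8 L9 : ℝ)
    (hstar : lΛ + ls = lκ + ∑ i, lw i)
    (hG1 : lκ + ∑ i, lp i ≤ (M * L2 + L9 + L4) + m * lc)
    (hG2 : m * lc ≤ (L1 + L9 + M * L6) + (lκ + ∑ i, lp i))
    (hW1 : ∀ i, lw i ≤ L7 + lb i)
    (hS1 : ls ≤ L5 + (m1 * lc + k' * lq)) :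
    (m1 * lc + k' * lq ≤ L3 + ls →
      lΛ - lc - k * lq + ∑ i, (lp i + lq - lb i) ≤ M * L2 + L9 + L4 + M * L7 + L3) ∧
    ((∀ i, lb i ≤ L8 + lw i) →
      -(L1 + L9 + M * L6 + M * L8 + L5) ≤ lΛ - lc - k * lq + ∑ i, (lp i + lq - lb i)) := by
  have e1 : ∑ i, (lp i + lq - lb i) = ∑ i, lp i + M * lq - ∑ i, lb i := by
    rw [Finset.sum_sub_distrib, Finset.sum_add_distrib, Finset.sum_const, Finset.card_univ,
      Fintype.card_fin, nsmul_eq_mul]
  have e2 : ∑ i, lw i ≤ M * L7 + ∑ i, lb i := by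
    calc ∑ i, lw i ≤ ∑ i, (L7 + lb i) := Finset.sum_le_sum fun i _ => hW1 i
      _ = M * L7 + ∑ i, lb i := by
        rw [Finset.sum_add_distrib, Finset.sum_const, Finset.card_univ, Fintype.card_fin,
          nsmul_eq_mul]
  have e3 : (M : ℝ) * lq = k * lq + k' * lq := by rw [hM]; ring
  have e4 : m * lc = m1 * lc + lc := by rw [hm]; ring
  constructor
  · intro hS2
    rw [e1]
    linarith
  · intro hW2
    have e5 : ∑ i, lb i ≤ M * L8 + ∑ i, lw i := by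
      calc ∑ i, lb i ≤ ∑ i, (L8 + lw i) := Finset.sum_le_sum fun i _ => hW2 i
        _ = M * L8 + ∑ i, lw i := by
          rw [Finset.sum_add_distrib, Finset.sum_const, Finset.card_univ, Fintype.card_fin,
            nsmul_eq_mul]
    rw [e1]
    linarith


/-! ### The two-sided estimate for one pencil -/

theorem log_mul_pos {x y : ℝ} (hx : 0 < x) (hy : 0 < y) :
    Real.log (x * y) = Real.log x + Real.log y := Real.log_mul hx.ne' hy.ne'

/-- The two-sided estimate for one pencil whose cofactor does not vanish at `Q`. -/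
theorem per_pencil (hLM : LeadMul K F) (hMin : U.MinOrdSpec) (hLL : U.LeadLinear)
    (hSV : U.SecValue) (hZD : U.ZeroDivSpec) (hVA : U.VeryAmpleU) (hm : 0 < U.m)
    (𝔉 : Fam U B B' A) (a : Fin A) (v : AbsoluteValue K ℝ)
    {c : Fin B.ℓ → K} (hc : c ≠ 0) {Z : Divisor K F} (hZ : U.IsZeroDiv k Z (B.sec c))
    (Q : Place K F) (pts : Fin (k * U.m) → Place K F) (hmem : ∀ i, pts i ∈ Z.support)
    (hsurj : ∀ P ∈ Z.support, ∃ i, pts i = P)
    (hprod : ∀ {R : Type} [CommMonoid R] (f : Place K F → R),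
        ∏ i, f (pts i) = Z.prod fun P e => f P ^ e.toNat)
    (c1 c2 c3 c4 c5 c6 c7 c8 c9 : ℝ) (h1c1 : 1 ≤ c1) (h1c2 : 1 ≤ c2) (h1c3 : 1 ≤ c3)
    (h1c4 : 1 ≤ c4) (h1c5 : 1 ≤ c5) (h1c6 : 1 ≤ c6) (h1c7 : 1 ≤ c7) (h1c8 : 1 ≤ c8)
    (h1c9 : 1 ≤ c9)
    (h1 : ∀ Bd : ℝ, (∀ j, v (eval c (𝔉.Np a j)) ≤ Bd) → supNorm v c ^ U.m ≤ c1 * Bd)
    (h2 : ∀ P : Place K F, supNorm v (U.pt P) ≤
      c2 * max (v (dot (𝔉.π a).ξ (U.pt P))) (v (dot (𝔉.π a).η (U.pt P))))
    (h4 : ∀ j, v (eval c (𝔉.Np a j)) ≤ c4 * supNorm v c ^ U.m)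
    (h5 : v (𝔉.sig a c (U.pt Q)) ≤
      c5 * (supNorm v c ^ (U.m - 1) * supNorm v (U.pt Q) ^ (k * (U.m - 1))))
    (h6 : ∀ p : Fin (U.n + 1) → K,
      max (v (dot (𝔉.π a).η p)) (v (dot (𝔉.π a).ξ p)) ≤ c6 * supNorm v p)
    (h7 : ∀ w : Fin (U.n + 1) × Fin (U.n + 1) → K,
      v (omega (𝔉.π a).ξ (𝔉.π a).η w) ≤ c7 * supNorm v w)
    (h9 : ∀ (κ : K) (lam mu : Fin (k * U.m) → K),
        (⨆ j : Fin (k * U.m + 1), v ((Polynomial.C κ * ∏ i,
            (Polynomial.C (mu i) * Polynomial.X - Polynomial.C (lam i))).coeff j)) ≤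
          c9 * (v κ * ∏ i, max (v (lam i)) (v (mu i))) ∧
        v κ * ∏ i, max (v (lam i)) (v (mu i)) ≤
          c9 * ⨆ j : Fin (k * U.m + 1), v ((Polynomial.C κ * ∏ i,
            (Polynomial.C (mu i) * Polynomial.X - Polynomial.C (lam i))).coeff j))
    (hsig : 𝔉.sig a c (U.pt Q) ≠ 0) :
    (supNorm v c ^ (U.m - 1) * supNorm v (U.pt Q) ^ (k * (U.m - 1)) ≤
        c3 * v (𝔉.sig a c (U.pt Q)) →
      Real.log (v (leadAt Q (U.t Q) (B.sec c))) - Real.log (supNorm v c)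
          - (k : ℝ) * Real.log (supNorm v (U.pt Q))
          + pairAt v U.x U.t Z (Finsupp.single Q 1) ≤
        Real.log (c2 ^ (k * U.m) * c9 * c4 * c7 ^ (k * U.m) * c3)) ∧
    ((∀ i, supNorm v (bv U Q (pts i)) ≤ c8 * v (wv U (𝔉.π a).ξ (𝔉.π a).η Q (pts i))) →
      -Real.log (c1 * c9 * c6 ^ (k * U.m) * c8 ^ (k * U.m) * c5) ≤
        Real.log (v (leadAt Q (U.t Q) (B.sec c))) - Real.log (supNorm v c)
          - (k : ℝ) * Real.log (supNorm v (U.pt Q))
          + pairAt v U.x U.t Z (Finsupp.single Q 1)) := by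
  classical
  obtain ⟨hZ0, -⟩ := zeroDiv_facts hZD B hc hZ
  have hZnn : ∀ P, 0 ≤ Z P := fun P => by
    have := Finsupp.le_def.mp hZ0 P
    simpa using this
  obtain ⟨κ, hκ, hcoeff, hiff, hlead⟩ :=
    pencil_facts hLM hMin hLL hSV hZD hm 𝔉 a hc hZ Q pts hmem hsurj hprod
  have hw := hiff.mp hsig
  have hstarK := hlead hsig
  -- positivity
  have hc1 : 0 < c1 := lt_of_lt_of_le one_pos h1c1
  have hc2 : 0 < c2 := lt_of_lt_of_le one_pos h1c2
  have hc3 : 0 < c3 := lt_of_lt_of_le one_pos h1c3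
  have hc4 : 0 < c4 := lt_of_lt_of_le one_pos h1c4
  have hc5 : 0 < c5 := lt_of_lt_of_le one_pos h1c5
  have hc6 : 0 < c6 := lt_of_lt_of_le one_pos h1c6
  have hc7 : 0 < c7 := lt_of_lt_of_le one_pos h1c7
  have hc8 : 0 < c8 := lt_of_lt_of_le one_pos h1c8
  have hc9 : 0 < c9 := lt_of_lt_of_le one_pos h1c9
  have hnc : 0 < supNorm v c := (supNorm_pos_iff v c).mpr hc
  have hnq : 0 < supNorm v (U.pt Q) := (supNorm_pos_iff v _).mpr (hVA.1 Q)
  have hnp : ∀ i, 0 < supNorm v (U.pt (pts i)) := fun i => (supNorm_pos_iff v _).mpr (hVA.1 _)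
  have hnb : ∀ i, 0 < supNorm v (bv U Q (pts i)) := fun i =>
    (supNorm_pos_iff v _).mpr (bv_ne_zero hVA Q _)
  have hvw : ∀ i, 0 < v (wv U (𝔉.π a).ξ (𝔉.π a).η Q (pts i)) := fun i => v.pos (hw i)
  have hvκ : 0 < v κ := v.pos hκ
  have hvs : 0 < v (𝔉.sig a c (U.pt Q)) := v.pos hsig
  have hΛne : leadAt Q (U.t Q) (B.sec c) ≠ 0 := by
    intro h0
    rw [h0, zero_mul] at hstarK
    exact (mul_ne_zero hκ (Finset.prod_ne_zero_iff.mpr fun i _ => hw i)) hstarK.symm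
  have hvΛ : 0 < v (leadAt Q (U.t Q) (B.sec c)) := v.pos hΛne
  have hprodw : 0 < ∏ i, v (wv U (𝔉.π a).ξ (𝔉.π a).η Q (pts i)) :=
    Finset.prod_pos fun i _ => hvw i
  have hprodp : 0 < ∏ i, supNorm v (U.pt (pts i)) := Finset.prod_pos fun i _ => hnp i
  -- the star formula in logarithms
  have hstar : Real.log (v (leadAt Q (U.t Q) (B.sec c))) + Real.log (v (𝔉.sig a c (U.pt Q))) =
      Real.log (v κ) + ∑ i, Real.log (v (wv U (𝔉.π a).ξ (𝔉.π a).η Q (pts i))) := by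
    have h := congrArg v hstarK
    rw [map_mul, map_mul, map_prod] at h
    rw [← log_mul_pos hvΛ hvs, h, log_mul_pos hvκ hprodw, Real.log_prod fun i _ => (hvw i).ne']
  -- the Gauss step
  obtain ⟨hg1, hg2⟩ := h9 κ (fun i => dot (𝔉.π a).η (U.pt (pts i)))
    (fun i => dot (𝔉.π a).ξ (U.pt (pts i)))
  have hNeq : (⨆ j : Fin (k * U.m + 1), v ((Polynomial.C κ * ∏ i,
      (Polynomial.C (dot (𝔉.π a).ξ (U.pt (pts i))) * Polynomial.X
        - Polynomial.C (dot (𝔉.π a).η (U.pt (pts i))))).coeff j)) =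
      ⨆ j : Fin (k * U.m + 1), v (eval c (𝔉.Np a j)) :=
    iSup_congr fun j => by rw [hcoeff j]
  rw [hNeq] at hg1 hg2
  obtain ⟨hG1, hG2⟩ := gauss_core (v κ) (supNorm v c ^ U.m)
    (⨆ j : Fin (k * U.m + 1), v (eval c (𝔉.Np a j)))
    (v κ * ∏ i, max (v (dot (𝔉.π a).η (U.pt (pts i)))) (v (dot (𝔉.π a).ξ (U.pt (pts i)))))
    c1 c2 c4 c6 c9 (fun i => supNorm v (U.pt (pts i)))
    (fun i => max (v (dot (𝔉.π a).η (U.pt (pts i)))) (v (dot (𝔉.π a).ξ (U.pt (pts i)))))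
    hvκ.le (fun i => (hnp i).le) (fun i => le_max_of_le_left (v.nonneg _)) h1c1 h1c2 h1c6 h1c9
    rfl (fun i => by rw [max_comm]; exact h2 (pts i)) (fun i => h6 _) hg1 hg2
    (h1 _ fun j => le_ciSup (f := fun j : Fin (k * U.m + 1) => v (eval c (𝔉.Np a j)))
      (Finite.bddAbove_range _) j) (ciSup_le fun j => h4 j)
  have hlG1 : Real.log (v κ) + ∑ i, Real.log (supNorm v (U.pt (pts i))) ≤
      (((k * U.m : ℕ) : ℝ) * Real.log c2 + Real.log c9 + Real.log c4)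
        + (U.m : ℝ) * Real.log (supNorm v c) := by
    have h := log_le_add_of_le_mul (mul_pos hvκ hprodp) (pow_pos hnc U.m)
      (by positivity : 0 < c2 ^ (k * U.m) * c9 * c4) hG1
    rw [log_mul_pos hvκ hprodp, Real.log_prod fun i _ => (hnp i).ne', Real.log_pow,
      log_mul_pos (by positivity) hc4, log_mul_pos (by positivity) hc9, Real.log_pow] at h
    exact h
  have hlG2 : (U.m : ℝ) * Real.log (supNorm v c) ≤
      (Real.log c1 + Real.log c9 + ((k * U.m : ℕ) : ℝ) * Real.log c6)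
        + (Real.log (v κ) + ∑ i, Real.log (supNorm v (U.pt (pts i)))) := by
    have h := log_le_add_of_le_mul (pow_pos hnc U.m) (mul_pos hvκ hprodp)
      (by positivity : 0 < c1 * c9 * c6 ^ (k * U.m)) hG2
    rw [log_mul_pos hvκ hprodp, Real.log_prod fun i _ => (hnp i).ne', Real.log_pow,
      log_mul_pos (by positivity) (by positivity), log_mul_pos hc1 hc9, Real.log_pow] at h
    exact h
  -- the 2-forms
  have hW1 : ∀ i, Real.log (v (wv U (𝔉.π a).ξ (𝔉.π a).η Q (pts i))) ≤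
      Real.log c7 + Real.log (supNorm v (bv U Q (pts i))) := fun i =>
    log_le_add_of_le_mul (hvw i) (hnb i) hc7 (by rw [wv_eq_omega]; exact h7 _)
  -- the cofactor
  have hpos5 : 0 < supNorm v c ^ (U.m - 1) * supNorm v (U.pt Q) ^ (k * (U.m - 1)) :=
    mul_pos (pow_pos hnc _) (pow_pos hnq _)
  have hlog5 : Real.log (supNorm v c ^ (U.m - 1) * supNorm v (U.pt Q) ^ (k * (U.m - 1))) =
      ((U.m - 1 : ℕ) : ℝ) * Real.log (supNorm v c)
        + ((k * (U.m - 1) : ℕ) : ℝ) * Real.log (supNorm v (U.pt Q)) := by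
    rw [log_mul_pos (pow_pos hnc _) (pow_pos hnq _), Real.log_pow, Real.log_pow]
  have hS1 : Real.log (v (𝔉.sig a c (U.pt Q))) ≤ Real.log c5 +
      (((U.m - 1 : ℕ) : ℝ) * Real.log (supNorm v c)
        + ((k * (U.m - 1) : ℕ) : ℝ) * Real.log (supNorm v (U.pt Q))) := by
    have h := log_le_add_of_le_mul hvs hpos5 hc5 h5
    rwa [hlog5] at h
  -- the pairing
  have hpair : pairAt v U.x U.t Z (Finsupp.single Q 1) =
      ∑ i, (Real.log (supNorm v (U.pt (pts i))) + Real.log (supNorm v (U.pt Q))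
        - Real.log (supNorm v (bv U Q (pts i)))) := by
    rw [pairAt_single_right, ← sum_enum Z hZnn pts hprod fun P => lamAt v U.x U.t P Q]
    refine Finset.sum_congr rfl fun i _ => ?_
    rw [lamAt_eq_bv, Real.log_div (hnb i).ne' (mul_pos (hnp i) hnq).ne',
      log_mul_pos (hnp i) hnq]
    ring
  have hkk : k + k * (U.m - 1) = k * U.m := by
    obtain ⟨m', hm'⟩ : ∃ m', U.m = m' + 1 := ⟨U.m - 1, by omega⟩
    rw [hm']
    simp only [Nat.add_sub_cancel]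
    ring
  have hMr : ((k * U.m : ℕ) : ℝ) = (k : ℝ) + ((k * (U.m - 1) : ℕ) : ℝ) := by
    rw [← Nat.cast_add, hkk]
  have hmr : (U.m : ℝ) = ((U.m - 1 : ℕ) : ℝ) + 1 := by
    have : U.m = (U.m - 1) + 1 := by omega
    conv_lhs => rw [this]
    push_cast
    ring
  obtain ⟨hup, hlow⟩ := final_real (M := k * U.m) (k : ℝ) ((k * (U.m - 1) : ℕ) : ℝ) (U.m : ℝ)
    ((U.m - 1 : ℕ) : ℝ) hMr hmr
    (Real.log (v (leadAt Q (U.t Q) (B.sec c)))) (Real.log (v (𝔉.sig a c (U.pt Q))))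
    (Real.log (v κ)) (Real.log (supNorm v c)) (Real.log (supNorm v (U.pt Q)))
    (fun i => Real.log (supNorm v (U.pt (pts i))))
    (fun i => Real.log (supNorm v (bv U Q (pts i))))
    (fun i => Real.log (v (wv U (𝔉.π a).ξ (𝔉.π a).η Q (pts i))))
    (Real.log c1) (Real.log c2) (Real.log c3) (Real.log c4) (Real.log c5) (Real.log c6)
    (Real.log c7) (Real.log c8) (Real.log c9) hstar hlG1 hlG2 hW1 hS1
  constructor
  · intro hS2
    have hS2' : ((U.m - 1 : ℕ) : ℝ) * Real.log (supNorm v c)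
        + ((k * (U.m - 1) : ℕ) : ℝ) * Real.log (supNorm v (U.pt Q)) ≤
        Real.log c3 + Real.log (v (𝔉.sig a c (U.pt Q))) := by
      have h := log_le_add_of_le_mul hpos5 hvs hc3 hS2
      rwa [hlog5] at h
    have h := hup hS2'
    rw [hpair]
    refine h.trans (le_of_eq ?_)
    rw [log_mul_pos (by positivity) hc3, log_mul_pos (by positivity) (by positivity),
      log_mul_pos (by positivity) hc4, log_mul_pos (by positivity) hc9, Real.log_pow,
      Real.log_pow]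
  · intro hW2
    have hW2' : ∀ i, Real.log (supNorm v (bv U Q (pts i))) ≤
        Real.log c8 + Real.log (v (wv U (𝔉.π a).ξ (𝔉.π a).η Q (pts i))) := fun i =>
      log_le_add_of_le_mul (hnb i) (hvw i) hc8 (hW2 i)
    have h := hlow hW2'
    rw [hpair]
    refine le_trans (le_of_eq ?_) h
    rw [log_mul_pos (by positivity) hc5, log_mul_pos (by positivity) (by positivity),
      log_mul_pos (by positivity) (by positivity), log_mul_pos hc1 hc9, Real.log_pow,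
      Real.log_pow]


/-! ### The master theorem for sections -/

/-- **UB7a**: the master theorem for sections. -/
theorem sectionUD [IsAlgClosed K] [CharZero K] (hLM : LeadMul K F) (hMin : U.MinOrdSpec)
    (hLL : U.LeadLinear) (hSV : U.SecValue) (hCM : U.ConeMem) (hVA : U.VeryAmpleU)
    (hCone : ConeU U) (hZD : U.ZeroDivSpec) (hPP : U.PencilPackage) (hGP : U.GenPosBpf)
    (hG : GaussBinary) (hMB : U.MonoBasisExists) : U.SectionUD := by
  classical
  intro k hk B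
  have hm : 0 < U.m := by
    have := U.m₀_large
    unfold USetup.m
    omega
  obtain ⟨B'⟩ := hMB (k * (U.m - 1))
  obtain ⟨ξ, η, c8, hc8, hgen, hfam⟩ := hGP (k * U.m * ((U.n + 1).choose 2 - 1) + 1)
  have hA : k * U.m * ((U.n + 1).choose 2 - 1) < k * U.m * ((U.n + 1).choose 2 - 1) + 1 :=
    Nat.lt_succ_self _
  -- the pencils and their packages
  have hξne : ∀ a, (fun i => ((ξ a i : ℚ) : K)) ≠ 0 := fun a h =>
    (hfam a).1 (funext fun i => by
      have := congrFun h i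
      simpa using this)
  obtain ⟨𝔉, h𝔉⟩ := exists_fam hPP hk B B' (fun a =>
    (⟨fun i => ((ξ a i : ℚ) : K), fun i => ((η a i : ℚ) : K), hξne a, (hfam a).2⟩ : U.Pencil))
  have hξ𝔉 : ∀ a, (𝔉.π a).ξ = fun i => ((ξ a i : ℚ) : K) := fun a => by rw [h𝔉]
  have hη𝔉 : ∀ a, (𝔉.π a).η = fun i => ((η a i : ℚ) : K) := fun a => by rw [h𝔉]
  have hgood : ∀ (v : AbsoluteValue K ℝ), IsNiceAbs v → ∀ (Q : Place K F)
      (pts : Fin (k * U.m) → Place K F), ∃ a, ∀ i,
        supNorm v (bv U Q (pts i)) ≤ c8 v * v (wv U (𝔉.π a).ξ (𝔉.π a).η Q (pts i)) := by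
    intro v hv Q pts
    obtain ⟨a, ha⟩ := exists_good_pencil hgen hA v hv Q pts
    exact ⟨a, fun i => by rw [hξ𝔉, hη𝔉]; exact ha i⟩
  -- a good pencil has a nonvanishing cofactor
  have hgoodsig : ∀ (v : AbsoluteValue K ℝ) (c : Fin B.ℓ → K), c ≠ 0 → ∀ (Z : Divisor K F),
      U.IsZeroDiv k Z (B.sec c) → ∀ (Q : Place K F) (pts : Fin (k * U.m) → Place K F),
      (∀ i, pts i ∈ Z.support) → (∀ P ∈ Z.support, ∃ i, pts i = P) →
      (∀ {R : Type} [CommMonoid R] (f : Place K F → R),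
        ∏ i, f (pts i) = Z.prod fun P e => f P ^ e.toNat) → ∀ a,
      (∀ i, supNorm v (bv U Q (pts i)) ≤ c8 v * v (wv U (𝔉.π a).ξ (𝔉.π a).η Q (pts i))) →
      𝔉.sig a c (U.pt Q) ≠ 0 := by
    intro v c hc Z hZ Q pts hmem hsurj hprod a ha
    obtain ⟨κ, -, -, hiff, -⟩ :=
      pencil_facts hLM hMin hLL hSV hZD hm 𝔉 a hc hZ Q pts hmem hsurj hprod
    refine hiff.mpr fun i hw0 => ?_
    have h := ha i
    rw [hw0, map_zero, mul_zero] at h
    exact absurd h (not_le.mpr ((supNorm_pos_iff _ _).mpr (bv_ne_zero hVA Q _)))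
  have hqual : ∀ c : Fin B.ℓ → K, c ≠ 0 → ∀ Q : Place K F,
      ∃ a, B'.val (fun b => eval c (𝔉.Sp a b)) (U.pt Q) ≠ 0 := by
    intro c hc Q
    obtain ⟨Z, hZ, -, -⟩ := hZD k (B.sec c) (sec_mem B c) (sec_ne_zero B hc)
    obtain ⟨pts, hmem, hsurj, hprod⟩ := exists_pts hZD B hc hZ
    obtain ⟨a, ha⟩ := hgood AbsoluteValue.trivial isNiceAbs_trivial Q pts
    exact ⟨a, hgoodsig _ c hc Z hZ Q pts hmem hsurj hprod a ha⟩
  -- the constants
  choose C1 hC1 hα using fun a => alpha_bound (𝔉.Np a) U.m (𝔉.hNp a)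
    (fun c hc => 𝔉.np_ne_zero hZD a hc)
  obtain ⟨c1, hc1, hle1⟩ := tame_fintypeSup C1 hC1
  choose C2 hC2 hβ using fun a => beta_bound U hCone hCM (𝔉.π a)
  obtain ⟨c2, hc2, hle2⟩ := tame_fintypeSup C2 hC2
  obtain ⟨c3, hc3, hγ⟩ := gamma_bound U hCone hCM hVA.1 B B' 𝔉.Sp (U.m - 1) 𝔉.hSp hqual
  obtain ⟨c4, hc4, hup4⟩ := exists_upper_family
    (fun ai : Fin (k * U.m * ((U.n + 1).choose 2 - 1) + 1) × Fin (k * U.m + 1) =>
      𝔉.Np ai.1 ai.2) U.m (fun ai => 𝔉.hNp ai.1 ai.2)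
  choose C5 hC5 hup5 using fun a => exists_upper_sig B B' (𝔉.Sp a) (U.m - 1) (𝔉.hSp a)
  obtain ⟨c5, hc5, hle5⟩ := tame_fintypeSup C5 hC5
  choose C6 hC6 hup6 using fun a => exists_upper_dot (U := U) (𝔉.π a).ξ (𝔉.π a).η
  obtain ⟨c6, hc6, hle6⟩ := tame_fintypeSup C6 hC6
  choose C7 hC7 hup7 using fun a => exists_upper_omega (U := U) (𝔉.π a).ξ (𝔉.π a).η
  obtain ⟨c7, hc7, hle7⟩ := tame_fintypeSup C7 hC7
  obtain ⟨c9, hc9, hgauss⟩ := exists_gauss_const (K := K) hG (k * U.m)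
  refine ⟨fun v => max (c2 v ^ (k * U.m) * c9 v * c4 v * c7 v ^ (k * U.m) * c3 v)
      (c1 v * c9 v * c6 v ^ (k * U.m) * c8 v ^ (k * U.m) * c5 v),
    tame_max (tame_mul (tame_mul (tame_mul (tame_mul (tame_pow hc2 _) hc9) hc4)
        (tame_pow hc7 _)) hc3)
      (tame_mul (tame_mul (tame_mul (tame_mul hc1 hc9) (tame_pow hc6 _)) (tame_pow hc8 _)) hc5),
    ?_⟩
  intro v hv c hc Z hZ Q
  obtain ⟨pts, hmem, hsurj, hprod⟩ := exists_pts hZD B hc hZ
  have hnc : 0 < supNorm v c := (supNorm_pos_iff v c).mpr hc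
  have hnq : 0 < supNorm v (U.pt Q) := (supNorm_pos_iff v _).mpr (hVA.1 Q)
  have hpp := fun (a : Fin (k * U.m * ((U.n + 1).choose 2 - 1) + 1))
      (hsig : 𝔉.sig a c (U.pt Q) ≠ 0) =>
    per_pencil hLM hMin hLL hSV hZD hVA hm 𝔉 a v hc hZ Q pts hmem hsurj hprod
      (c1 v) (c2 v) (c3 v) (c4 v) (c5 v) (c6 v) (c7 v) (c8 v) (c9 v)
      (tame_one_le hc1 v) (tame_one_le hc2 v) (tame_one_le hc3 v) (tame_one_le hc4 v)
      (tame_one_le hc5 v) (tame_one_le hc6 v) (tame_one_le hc7 v) (tame_one_le hc8 v)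
      (tame_one_le hc9 v)
      (fun Bd hBd => (hα a v c hc Bd hBd).trans
        (mul_le_mul_of_nonneg_right (hle1 a v) ((v.nonneg _).trans (hBd 0))))
      (fun P => (hβ a v P).trans
        (mul_le_mul_of_nonneg_right (hle2 a v) (le_max_of_le_left (v.nonneg _))))
      (fun j => hup4 v c (a, j))
      ((hup5 a v c (U.pt Q)).trans (mul_le_mul_of_nonneg_right (hle5 a v)
        (mul_nonneg (pow_nonneg (supNorm_nonneg v c) _) (pow_nonneg (supNorm_nonneg v _) _))))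
      (fun p => (hup6 a v p).trans
        (mul_le_mul_of_nonneg_right (hle6 a v) (supNorm_nonneg v p)))
      (fun w => (hup7 a v w).trans
        (mul_le_mul_of_nonneg_right (hle7 a v) (supNorm_nonneg v w)))
      (hgauss v hv) hsig
  -- the upper bound: the pencil with the largest cofactor
  obtain ⟨amax, -, hmax⟩ := Finset.exists_max_image
    (Finset.univ : Finset (Fin (k * U.m * ((U.n + 1).choose 2 - 1) + 1)))
    (fun a => v (𝔉.sig a c (U.pt Q))) ⟨0, Finset.mem_univ _⟩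
  have hγ' := hγ v c hc Q (v (𝔉.sig amax c (U.pt Q))) (fun a => hmax a (Finset.mem_univ a))
  have hsigmax : 𝔉.sig amax c (U.pt Q) ≠ 0 := by
    intro h0
    rw [h0, map_zero, mul_zero] at hγ'
    exact absurd hγ' (not_le.mpr (mul_pos (pow_pos hnc _) (pow_pos hnq _)))
  have hU := (hpp amax hsigmax).1 hγ'
  -- the lower bound: a good pencil
  obtain ⟨ag, hag⟩ := hgood v hv Q pts
  have hsigg := hgoodsig v c hc Z hZ Q pts hmem hsurj hprod ag hag
  have hL := (hpp ag hsigg).2 hag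
  have hposU : 0 < c2 v ^ (k * U.m) * c9 v * c4 v * c7 v ^ (k * U.m) * c3 v := by
    have := tame_pos hc2 v; have := tame_pos hc9 v; have := tame_pos hc4 v
    have := tame_pos hc7 v; have := tame_pos hc3 v
    positivity
  have hposL : 0 < c1 v * c9 v * c6 v ^ (k * U.m) * c8 v ^ (k * U.m) * c5 v := by
    have := tame_pos hc1 v; have := tame_pos hc9 v; have := tame_pos hc6 v
    have := tame_pos hc8 v; have := tame_pos hc5 v
    positivity
  rw [abs_le]
  constructor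
  · refine le_trans ?_ hL
    rw [neg_le_neg_iff]
    exact Real.log_le_log hposL (le_max_right _ _)
  · exact hU.trans (Real.log_le_log hposU (le_max_left _ _))

end Fermat.Agent.MW.Master.SectionUD7
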