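/-
Program MW-H (S17), THE MASTER THEOREM `U`, unconditional.  helper7.

`sectionUD_all : U.SectionUD`, `masterUDU : U.MasterUDU` for every standing datum `U` over an
algebraically closed field of characteristic zero, and `masterUD : S.MasterUD` for the global
standing data: the assembly `SectionUD7.sectionUD` with every contract discharged by the landed
bricks (helper48, helper49, helper51, helper61, helper62, helper75, helper80, helper86).
-/
import Mathlib
import Fermat.Agent.MW.Master.SectionUD7
import Fermat.Agent.MW.Master.GaussContract7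
import Fermat.Agent.MW.FF.MasterOfSection62
import Fermat.Agent.MW.FF.LeadLinear49
import Fermat.Agent.MW.FF.ConePoints48
import Fermat.Agent.MW.FF.PencilPackage51
import Fermat.Agent.MW.Local.GenPosBpfU80

set_option autoImplicit false

open AlgebraicCurve

namespace Fermat.Agent.MW.Master.MasterU7

open Fermat.Agent.MW.Spec.Defs7 Fermat.Agent.MW.Spec.Bricks7 Fermat.Agent.MW.Spec.BricksU7

variable {K F : Type} [Field K] [Field F] [Algebra K F] [HasCanonicalDivisor (K := K) (F := F)]
  [IsAlgClosed K] [CharZero K]

/-- E2 for the standing tuple. -/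
theorem coneU (U : USetup K F) : Certs7.ConeU U := fun y hy hrel =>
  Fermat.Agent.MW.FF.ConePoints48.conePointsNZ U.u₀ U.gen U.x U.t U.t_ord
    (Fermat.Agent.MW.FF.LeadLinear49.x_ne_zero U) y hy fun p hp h0 => hrel p ⟨hp, h0⟩

/-- **UD''**: the master theorem for sections, unconditional. -/
theorem sectionUD_all (U : USetup K F) : U.SectionUD :=
  SectionUD7.sectionUD
    (Fermat.Agent.MW.FF.EvalLead49.leadMul_of_hasResK fun P =>
      Fermat.Agent.MW.FF.VeryAmple49.hasResK U.gen P)
    (Fermat.Agent.MW.FF.LeadLinear49.minOrdSpec U)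
    (Fermat.Agent.MW.FF.LeadLinear49.leadLinear U)
    (Fermat.Agent.MW.FF.LeadLinear49.secValue U)
    (Fermat.Agent.MW.FF.LeadLinear49.coneMem U)
    (Fermat.Agent.MW.FF.LeadLinear49.veryAmpleU U)
    (coneU U)
    (Fermat.Agent.MW.FF.ZeroDiv80.zeroDivSpec U)
    (Fermat.Agent.MW.FF.PencilPackage51.pencilPackage U)
    (Fermat.Agent.MW.Local.GenPosBpfU80.genPosBpf U
      (Fermat.Agent.MW.FF.LeadLinear49.leadLinear U)
      (Fermat.Agent.MW.FF.LeadLinear49.minOrdSpec U)
      (Fermat.Agent.MW.FF.LeadLinear49.veryAmpleU U))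
    GaussContract7.gaussBinary7
    (Fermat.Agent.MW.FF.MonoBasis61.monoBasisExists U Fermat.Agent.MW.FF.PowerSurj86.powerSurj)

/-- **U**: the master theorem for the general-field data, unconditional. -/
theorem masterUDU (U : USetup K F) : U.MasterUDU :=
  Fermat.Agent.MW.FF.MasterOfSection62.masterUDU_of_sectionUD' U (sectionUD_all U)

/-- **U**: the master theorem for the global standing data, unconditional. -/
theorem masterUD {F : Type} [Field F] [Algebra Fermat.Agent.MW.Spec.Bricks7b.Qb F]
    [HasCanonicalDivisor (K := Fermat.Agent.MW.Spec.Bricks7b.Qb) (F := F)] (S : Fermat.Agent.MW.Spec.Bricks7b.HSetup F) : S.MasterUD :=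
  Fermat.Agent.MW.FF.MasterOfSection62.masterUD_of_sectionUD S (sectionUD_all (ofHSetup S))

end Fermat.Agent.MW.Master.MasterU7
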