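/-
Program MW-H (S17), master theorem `U`.  helper7.

BIHOMOGENEOUS QUANTITATIVE NULLSTELLENSATZ.  Polynomials `g a` in two groups of variables
`(c, y)`, bihomogeneous of bidegree `(d₁, d₂)`; a set `Rel` of (cone) relations in `y`.  If the
`g a` have no common zero `(c, y)` with `c ≠ 0`, `y ≠ 0`, `y` on the cone, then

    ‖c‖^d₁ ‖y‖^d₂ ≤ C v · max_a |g_a(c, y)|_v     for all `c ≠ 0` and all `y ≠ 0` on the cone,

with a TAME constant `C`.
-/
import Mathlib
import Fermat.Agent.MW.Master.TameConst7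
import Fermat.Agent.MW.Local.Chord2

set_option autoImplicit false

namespace Fermat.Agent.MW.Master.BiHom7

open MvPolynomial Fermat.Agent.MW.Hadamard7 Fermat.Agent.MW.Spec.Defs7
open Fermat.Agent.MW.Spec.Bricks7 Fermat.Agent.MW.Local.Certificate7
open Fermat.Agent.MW.Master.TameConst7 Fermat.Agent.MW.Local.Chord2

variable {K : Type*} [Field K] [IsAlgClosed K]
variable {σ₁ σ₂ : Type*} [Fintype σ₁] [Fintype σ₂]

theorem bihom_lower_bound {r : ℕ} (g : Fin r → MvPolynomial (σ₁ ⊕ σ₂) K) (d₁ d₂ : ℕ)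
    (hg : ∀ (a : Fin r) (c : σ₁ → K) (y : σ₂ → K) (α β : K),
      eval (Sum.elim (α • c) (β • y)) (g a) = α ^ d₁ * β ^ d₂ * eval (Sum.elim c y) (g a))
    (Rel : Set (MvPolynomial σ₂ K))
    (hRel : ∀ p ∈ Rel, ∀ (y : σ₂ → K) (β : K), eval y p = 0 → eval (β • y) p = 0)
    (hqual : ∀ (c : σ₁ → K) (y : σ₂ → K), (∀ a, eval (Sum.elim c y) (g a) = 0) →
      (∀ p ∈ Rel, eval y p = 0) → c = 0 ∨ y = 0) :
    ∃ C : AbsoluteValue K ℝ → ℝ, IsTameConst C ∧
      ∀ (v : AbsoluteValue K ℝ) (c : σ₁ → K) (y : σ₂ → K), c ≠ 0 → y ≠ 0 →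
        (∀ p ∈ Rel, eval y p = 0) → ∀ Bd : ℝ,
        (∀ a, v (eval (Sum.elim c y) (g a)) ≤ Bd) →
          supNorm v c ^ d₁ * supNorm v y ^ d₂ ≤ C v * Bd := by
  classical
  set I : Ideal (MvPolynomial (σ₁ ⊕ σ₂) K) :=
    Ideal.span ((fun p => rename Sum.inr p) '' Rel) with hI
  -- the qualitative statement for each monomial `c_j y_e`
  have hT : ∀ je : σ₁ × σ₂, ∀ z : σ₁ ⊕ σ₂ → K, (∀ a, eval z (g a) = 0) →
      (∀ p ∈ I, eval z p = 0) →
      eval z (X (Sum.inl je.1) * X (Sum.inr je.2) : MvPolynomial (σ₁ ⊕ σ₂) K) = 0 := by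
    intro je z hz hzI
    have hzelim : z = Sum.elim (z ∘ Sum.inl) (z ∘ Sum.inr) := by
      funext i; cases i <;> rfl
    have h1 : ∀ a, eval (Sum.elim (z ∘ Sum.inl) (z ∘ Sum.inr)) (g a) = 0 := fun a => by
      rw [← hzelim]; exact hz a
    have h2 : ∀ p ∈ Rel, eval (z ∘ Sum.inr) p = 0 := fun p hp => by
      have := hzI (rename Sum.inr p) (Ideal.subset_span ⟨p, hp, rfl⟩)
      rwa [eval_rename] at this
    rw [map_mul, eval_X, eval_X]
    rcases hqual _ _ h1 h2 with h | h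
    · have : z (Sum.inl je.1) = 0 := congrFun h je.1
      rw [this, zero_mul]
    · have : z (Sum.inr je.2) = 0 := congrFun h je.2
      rw [this, mul_zero]
  choose R C hC hbound using fun je : σ₁ × σ₂ =>
    exists_tame_bound g I (X (Sum.inl je.1) * X (Sum.inr je.2)) (hT je)
  obtain ⟨D, hD, hle⟩ := tame_fintypeSup C hC
  refine ⟨D, hD, fun v c y hc hy hyRel Bd hBd => ?_⟩
  have hBd0 : 0 ≤ Bd := by
    rcases isEmpty_or_nonempty (Fin r) with h | ⟨⟨a⟩⟩
    · -- no polynomial at all: then `hqual` forces `c = 0 ∨ y = 0`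
      exfalso
      rcases hqual c y (fun a => (h.false a).elim) hyRel with h0 | h0
      · exact hc h0
      · exact hy h0
    · exact (v.nonneg _).trans (hBd a)
  have hne1 : Nonempty σ₁ := by
    by_contra h
    rw [not_nonempty_iff] at h
    exact hc (Subsingleton.elim _ _)
  have hne2 : Nonempty σ₂ := by
    by_contra h
    rw [not_nonempty_iff] at h
    exact hy (Subsingleton.elim _ _)
  obtain ⟨j₀, hj₀⟩ := exists_eq_supNorm v c
  obtain ⟨e₀, he₀⟩ := exists_eq_supNorm v y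
  have hcpos : 0 < supNorm v c := (supNorm_pos_iff v c).mpr hc
  have hypos : 0 < supNorm v y := (supNorm_pos_iff v y).mpr hy
  have hcj : c j₀ ≠ 0 := by
    intro h; rw [h, map_zero] at hj₀; exact hcpos.ne hj₀
  have hye : y e₀ ≠ 0 := by
    intro h; rw [h, map_zero] at he₀; exact hypos.ne he₀
  set α : K := (c j₀)⁻¹ with hα
  set β : K := (y e₀)⁻¹ with hβ
  have hvα : v α = (supNorm v c)⁻¹ := by rw [hα, map_inv₀, hj₀]
  have hvβ : v β = (supNorm v y)⁻¹ := by rw [hβ, map_inv₀, he₀]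
  set z : σ₁ ⊕ σ₂ → K := Sum.elim (α • c) (β • y) with hz
  have hz1 : ∀ i, v (z i) ≤ 1 := by
    intro i
    cases i with
    | inl j =>
      simp only [hz, Sum.elim_inl, Pi.smul_apply, smul_eq_mul, map_mul, hvα]
      rw [inv_mul_le_iff₀ hcpos, mul_one]
      exact le_supNorm v c j
    | inr e =>
      simp only [hz, Sum.elim_inr, Pi.smul_apply, smul_eq_mul, map_mul, hvβ]
      rw [inv_mul_le_iff₀ hypos, mul_one]
      exact le_supNorm v y e
  have hzI : ∀ p ∈ I, eval z p = 0 := by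
    intro p hp
    have hle : I ≤ RingHom.ker (eval z) := by
      rw [hI, Ideal.span_le]
      rintro _ ⟨p, hp, rfl⟩
      show eval z (rename Sum.inr p) = 0
      rw [eval_rename]
      have : z ∘ Sum.inr = β • y := by funext e; simp [hz]
      rw [this]
      exact hRel p hp y β (hyRel p hp)
    exact hle hp
  have hB : ∀ a, v (eval z (g a)) ≤ v α ^ d₁ * v β ^ d₂ * Bd := by
    intro a
    rw [hz, hg a c y α β, map_mul, map_mul, map_pow, map_pow]
    exact mul_le_mul_of_nonneg_left (hBd a)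
      (mul_nonneg (pow_nonneg (v.nonneg _) _) (pow_nonneg (v.nonneg _) _))
  have hmain := hbound (j₀, e₀) v z hz1 hzI (v α ^ d₁ * v β ^ d₂ * Bd)
    (mul_nonneg (mul_nonneg (pow_nonneg (v.nonneg _) _) (pow_nonneg (v.nonneg _) _)) hBd0) hB
  have hTz : eval z (X (Sum.inl j₀) * X (Sum.inr e₀) : MvPolynomial (σ₁ ⊕ σ₂) K) = 1 := by
    rw [map_mul, eval_X, eval_X]
    simp only [hz, Sum.elim_inl, Sum.elim_inr, Pi.smul_apply, smul_eq_mul, hα, hβ]
    rw [inv_mul_cancel₀ hcj, inv_mul_cancel₀ hye, one_mul]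
  rw [hTz, map_one, one_pow, hvα, hvβ] at hmain
  have hDle := hle (j₀, e₀) v
  have hpos : 0 < supNorm v c ^ d₁ * supNorm v y ^ d₂ :=
    mul_pos (pow_pos hcpos _) (pow_pos hypos _)
  have h3 : 1 ≤ D v * (((supNorm v c)⁻¹) ^ d₁ * ((supNorm v y)⁻¹) ^ d₂ * Bd) := by
    refine hmain.trans (mul_le_mul_of_nonneg_right hDle ?_)
    exact mul_nonneg (mul_nonneg (pow_nonneg (inv_nonneg.mpr hcpos.le) _)
      (pow_nonneg (inv_nonneg.mpr hypos.le) _)) hBd0
  have h4 : ((supNorm v c)⁻¹) ^ d₁ * ((supNorm v y)⁻¹) ^ d₂ =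
      (supNorm v c ^ d₁ * supNorm v y ^ d₂)⁻¹ := by
    rw [inv_pow, inv_pow, mul_inv]
  rw [h4] at h3
  calc supNorm v c ^ d₁ * supNorm v y ^ d₂
      = supNorm v c ^ d₁ * supNorm v y ^ d₂ * 1 := (mul_one _).symm
    _ ≤ supNorm v c ^ d₁ * supNorm v y ^ d₂ *
          (D v * ((supNorm v c ^ d₁ * supNorm v y ^ d₂)⁻¹ * Bd)) :=
        mul_le_mul_of_nonneg_left h3 hpos.le
    _ = D v * Bd := by
        field_simp

end Fermat.Agent.MW.Master.BiHom7
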