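/-
Program MW-H (S17), master theorem `U`.  helper7.

ENUMERATION OF AN EFFECTIVE DIVISOR: a finitely supported function `Z : α →₀ ℤ` with nonnegative
values is the divisor of a finite sequence `pts : Fin M → α` (with repetitions), `M = ∑ Z`;
products and sums over `Z` become products and sums over `Fin M`.
-/
import Mathlib

set_option autoImplicit false

namespace Fermat.Agent.MW.Master.Enum7

theorem prod_getElem_eq_map_prod {α R : Type*} [CommMonoid R] (f : α → R) (l : List α) :
    ∏ i : Fin l.length, f l[i.1] = (l.map f).prod := by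
  induction l with
  | nil => simp
  | cons a l ih =>
    rw [List.map_cons, List.prod_cons, ← ih]
    simp only [List.length_cons]
    rw [Fin.prod_univ_succ]
    simp

theorem exists_enum {α : Type*} (Z : α →₀ ℤ) (hZ : ∀ a, 0 ≤ Z a) :
    ∃ (M : ℕ) (pts : Fin M → α), (M : ℤ) = Z.sum (fun _ e => e) ∧ (∀ i, pts i ∈ Z.support) ∧
      (∀ P ∈ Z.support, ∃ i, pts i = P) ∧
      ∀ {R : Type} [CommMonoid R] (f : α → R),
        ∏ i, f (pts i) = Z.prod fun P e => f P ^ e.toNat := by
  classical
  set ms : Multiset α := Z.support.val.bind fun P => Multiset.replicate (Z P).toNat P with hms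
  set L : List α := ms.toList with hL
  have hmem : ∀ a, a ∈ L ↔ a ∈ Z.support ∧ True := by
    intro a
    rw [hL, Multiset.mem_toList, hms, Multiset.mem_bind]
    constructor
    · rintro ⟨P, hP, ha⟩
      rw [Multiset.mem_replicate] at ha
      rw [ha.2]
      exact ⟨hP, trivial⟩
    · rintro ⟨ha, -⟩
      refine ⟨a, ha, Multiset.mem_replicate.mpr ⟨?_, rfl⟩⟩
      have h1 : Z a ≠ 0 := Finsupp.mem_support_iff.mp ha
      have h2 := hZ a
      omega
  refine ⟨L.length, fun i => L[i.1], ?_, fun i => ((hmem _).mp (List.getElem_mem _)).1, ?_, ?_⟩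
  · rw [hL, Multiset.length_toList, hms, Multiset.card_bind, Finsupp.sum]
    simp only [Function.comp_def, Multiset.card_replicate]
    rw [← Finset.sum_eq_multiset_sum, Nat.cast_sum]
    exact Finset.sum_congr rfl fun P _ => Int.toNat_of_nonneg (hZ P)
  · intro P hP
    have : P ∈ L := (hmem P).mpr ⟨hP, trivial⟩
    obtain ⟨i, hi, rfl⟩ := List.getElem_of_mem this
    exact ⟨⟨i, hi⟩, rfl⟩
  · intro R _ f
    rw [prod_getElem_eq_map_prod f L, hL, Multiset.prod_map_toList, hms, Multiset.map_bind,
      Multiset.prod_bind, Finsupp.prod]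
    simp only [Multiset.map_replicate, Multiset.prod_replicate]
    rfl

/-- Additive form of the enumeration. -/
theorem sum_enum {α : Type*} (Z : α →₀ ℤ) (hZ : ∀ a, 0 ≤ Z a) {M : ℕ} (pts : Fin M → α)
    (hpts : ∀ {R : Type} [CommMonoid R] (f : α → R),
        ∏ i, f (pts i) = Z.prod fun P e => f P ^ e.toNat) (g : α → ℝ) :
    ∑ i, g (pts i) = Z.sum fun P e => (e : ℝ) * g P := by
  have h := hpts (R := Multiplicative ℝ) fun P => Multiplicative.ofAdd (g P)
  have h2 := congrArg Multiplicative.toAdd h
  rw [toAdd_prod, Finsupp.prod, toAdd_prod] at h2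
  simp only [toAdd_ofAdd, toAdd_pow, nsmul_eq_mul] at h2
  rw [h2, Finsupp.sum]
  refine Finset.sum_congr rfl fun P _ => ?_
  have : (((Z P).toNat : ℕ) : ℝ) = ((Z P : ℤ) : ℝ) := by
    have := Int.toNat_of_nonneg (hZ P)
    exact_mod_cast this
  rw [this]

end Fermat.Agent.MW.Master.Enum7
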