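/-
Program MW-H (S17), brick L3 in contract form.  helper7.

`GaussBinary` (the contract of `Spec/Bricks7`) from helper75's `GaussBinary75.gaussBinary`.
-/
import Mathlib
import Fermat.Agent.MW.Spec.Bricks7
import Fermat.Agent.MW.Local.GaussBinary75

set_option autoImplicit false

namespace Fermat.Agent.MW.Master.GaussContract7

open Fermat.Agent.MW.Hadamard7 Fermat.Agent.MW.Spec.Defs7 Fermat.Agent.MW.Spec.Bricks7
open Fermat.Agent.MW.Local.GaussBinary75

/-- **L3** in contract form. -/
theorem gaussBinary7 : GaussBinary := by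
  intro m
  refine ⟨2 ^ m, one_le_pow₀ (by norm_num), ?_⟩
  intro K _ v hv κ lam mu
  have hR0 : 0 ≤ v κ * ∏ k, max (v (lam k)) (v (mu k)) :=
    mul_nonneg (v.nonneg _) (Finset.prod_nonneg fun k _ => le_max_of_le_left (v.nonneg _))
  have hN0 : 0 ≤ supNorm v (coeffVec m (binForm κ lam mu)) := supNorm_nonneg v _
  obtain ⟨h1, h2⟩ := gaussBinary v hv κ lam mu
  have hC : gaussC v m ≤ 2 ^ m := by
    by_cases hna : IsNonarchimedean v
    · rw [gaussC_of_nonarch v hna]; exact one_le_pow₀ (by norm_num)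
    · rw [gaussC_of_not_nonarch v hna]
  refine ⟨fun hna => supNorm_binForm_of_nonarch hna κ lam mu, ?_, ?_⟩
  · exact h2.trans (mul_le_mul_of_nonneg_right hC hR0)
  · rw [inv_mul_le_iff₀ (gaussC_pos v m)] at h1
    exact h1.trans (mul_le_mul_of_nonneg_right hC hN0)

end Fermat.Agent.MW.Master.GaussContract7
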